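/-
S55 (Program C), package C5, leaf B1 (DICT), part 1 (helper83): the prime of `𝓞 K` attached to an
embedding `τ : K →+* PadicAlgCl q`, and the comparison of the `τ`-norm with its valuation.

* `primeOfEmb q τ = {x ∈ 𝓞 K | ‖τ x‖ < 1}`, `heightOneOfEmb q τ : HeightOneSpectrum (𝓞 K)`;
* `primeOfEmb_comp`: invariance under the local Galois group;
* `norm_emb_le_one_iff`: `‖τ x‖ ≤ 1 ↔ (heightOneOfEmb q τ).valuation K x ≤ 1`.
-/
import Mathlib
import Fermat.Prelude.Def_GaloisRep_CompletionBridge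
import Fermat.Agent.S55.H88.SemiLocalDefs

set_option autoImplicit false

open NumberField IsDedekindDomain

namespace Fermat.Agent.S55.H83

noncomputable section

variable (q : ℕ) [Fact q.Prime]

/-- An element of `PadicAlgCl q` that is integral over `ℤ` has norm at most one. -/
theorem padicAlgCl_norm_le_one_of_isIntegral {y : PadicAlgCl q} (hy : IsIntegral ℤ y) :
    ‖y‖ ≤ 1 := by
  have h1 : IsIntegral (Valued.v : Valuation (PadicAlgCl q) NNReal).integer y := hy.tower_top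
  have h2 := (Valuation.integer.integers
    (Valued.v : Valuation (PadicAlgCl q) NNReal)).mem_of_integral h1
  rw [Valuation.mem_integer_iff] at h2
  exact_mod_cast h2

/-- The local Galois group acts by isometries. -/
theorem norm_padicAlgCl_algEquiv (g : PadicAlgCl q ≃ₐ[ℚ_[q]] PadicAlgCl q) (y : PadicAlgCl q) :
    ‖g y‖ = ‖y‖ :=
  congrArg NNReal.toReal (nnnorm_padicAlgCl_algEquiv q g y)

theorem norm_natCast_padicAlgCl : ‖((q : ℕ) : PadicAlgCl q)‖ = (q : ℝ)⁻¹ := by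
  have h : ((q : ℕ) : PadicAlgCl q) = algebraMap ℚ_[q] (PadicAlgCl q) (q : ℚ_[q]) :=
    (map_natCast _ q).symm
  rw [h, PadicAlgCl.norm_extends, Padic.norm_p]

theorem norm_natCast_padicAlgCl_lt_one : ‖((q : ℕ) : PadicAlgCl q)‖ < 1 := by
  rw [norm_natCast_padicAlgCl]
  exact inv_lt_one_of_one_lt₀ (by exact_mod_cast (Fact.out : q.Prime).one_lt)

variable {K : Type*} [Field K] [NumberField K]

omit [NumberField K] in
/-- Algebraic integers have norm at most one under every embedding. -/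
theorem norm_emb_le_one (τ : K →+* PadicAlgCl q) (x : 𝓞 K) :
    ‖τ (algebraMap (𝓞 K) K x)‖ ≤ 1 :=
  padicAlgCl_norm_le_one_of_isIntegral q (map_isIntegral_int τ x.isIntegral_coe)

/-- The prime ideal of `𝓞 K` defined by an embedding of `K` into `PadicAlgCl q`. -/
def primeOfEmb (τ : K →+* PadicAlgCl q) : Ideal (𝓞 K) where
  carrier := {x | ‖τ (algebraMap (𝓞 K) K x)‖ < 1}
  add_mem' := fun {a b} ha hb => by
    show ‖τ (algebraMap (𝓞 K) K (a + b))‖ < 1
    rw [map_add, map_add]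
    exact lt_of_le_of_lt (IsUltrametricDist.norm_add_le_max _ _) (max_lt ha hb)
  zero_mem' := by
    show ‖τ (algebraMap (𝓞 K) K 0)‖ < 1
    rw [map_zero, map_zero, norm_zero]
    exact one_pos
  smul_mem' := fun c {x} hx => by
    show ‖τ (algebraMap (𝓞 K) K (c • x))‖ < 1
    rw [smul_eq_mul, map_mul, map_mul, norm_mul]
    exact mul_lt_one_of_nonneg_of_lt_one_right (norm_emb_le_one q τ c) (norm_nonneg _) hx

theorem mem_primeOfEmb {τ : K →+* PadicAlgCl q} {x : 𝓞 K} :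
    x ∈ primeOfEmb q τ ↔ ‖τ (algebraMap (𝓞 K) K x)‖ < 1 := Iff.rfl

theorem norm_emb_eq_one_of_notMem {τ : K →+* PadicAlgCl q} {x : 𝓞 K} (hx : x ∉ primeOfEmb q τ) :
    ‖τ (algebraMap (𝓞 K) K x)‖ = 1 :=
  le_antisymm (norm_emb_le_one q τ x) (not_lt.1 hx)

theorem primeOfEmb_isPrime (τ : K →+* PadicAlgCl q) : (primeOfEmb q τ).IsPrime := by
  refine ⟨?_, ?_⟩
  · rw [Ne, Ideal.eq_top_iff_one]
    intro h
    have h1 : ‖τ (algebraMap (𝓞 K) K 1)‖ < 1 := h
    rw [map_one, map_one, norm_one] at h1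
    exact lt_irrefl _ h1
  · intro a b hab
    by_contra hcon
    rw [not_or] at hcon
    have ha := norm_emb_eq_one_of_notMem q hcon.1
    have hb := norm_emb_eq_one_of_notMem q hcon.2
    have h1 : ‖τ (algebraMap (𝓞 K) K (a * b))‖ < 1 := hab
    rw [map_mul, map_mul, norm_mul, ha, hb, mul_one] at h1
    exact lt_irrefl _ h1

theorem natCast_mem_primeOfEmb (τ : K →+* PadicAlgCl q) : ((q : ℕ) : 𝓞 K) ∈ primeOfEmb q τ := by
  show ‖τ (algebraMap (𝓞 K) K ((q : ℕ) : 𝓞 K))‖ < 1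
  rw [map_natCast, map_natCast]
  exact norm_natCast_padicAlgCl_lt_one q

theorem primeOfEmb_ne_bot (τ : K →+* PadicAlgCl q) : primeOfEmb q τ ≠ ⊥ := by
  intro h
  have h1 := natCast_mem_primeOfEmb q τ
  rw [h, Ideal.mem_bot] at h1
  exact (Fact.out : q.Prime).ne_zero (by exact_mod_cast h1)

/-- The height one prime of `𝓞 K` defined by an embedding of `K` into `PadicAlgCl q`. -/
def heightOneOfEmb (τ : K →+* PadicAlgCl q) : HeightOneSpectrum (𝓞 K) :=
  ⟨primeOfEmb q τ, primeOfEmb_isPrime q τ, primeOfEmb_ne_bot q τ⟩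

@[simp]
theorem heightOneOfEmb_asIdeal (τ : K →+* PadicAlgCl q) :
    (heightOneOfEmb q τ).asIdeal = primeOfEmb q τ := rfl

/-- Conjugate embeddings define the same prime. -/
theorem primeOfEmb_comp (g : PadicAlgCl q ≃ₐ[ℚ_[q]] PadicAlgCl q) (τ : K →+* PadicAlgCl q) :
    primeOfEmb q ((g : PadicAlgCl q →+* PadicAlgCl q).comp τ) = primeOfEmb q τ := by
  ext x
  show ‖g (τ (algebraMap (𝓞 K) K x))‖ < 1 ↔ ‖τ (algebraMap (𝓞 K) K x)‖ < 1
  rw [norm_padicAlgCl_algEquiv]

theorem heightOneOfEmb_comp (g : PadicAlgCl q ≃ₐ[ℚ_[q]] PadicAlgCl q) (τ : K →+* PadicAlgCl q) :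
    heightOneOfEmb q ((g : PadicAlgCl q →+* PadicAlgCl q).comp τ) = heightOneOfEmb q τ :=
  HeightOneSpectrum.ext (primeOfEmb_comp q g τ)

/-- **Compatibility.**  The unit ball of the `τ`-norm on `K` is the valuation ring of the prime
attached to `τ`. -/
theorem norm_emb_le_one_iff (τ : K →+* PadicAlgCl q) (x : K) :
    ‖τ x‖ ≤ 1 ↔ (heightOneOfEmb q τ).valuation K x ≤ 1 := by
  set P := heightOneOfEmb q τ with hP
  have hunit : ∀ d : P.asIdeal.primeCompl, ‖τ (algebraMap (𝓞 K) K d)‖ = 1 := fun d =>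
    norm_emb_eq_one_of_notMem q d.2
  constructor
  · intro h
    by_contra hcon
    have hlt : 1 < P.valuation K x := not_le.1 hcon
    have hx0 : x ≠ 0 := by
      rintro rfl
      rw [map_zero] at hlt
      exact not_lt_zero hlt
    have hinv : P.valuation K x⁻¹ < 1 := by
      rw [map_inv₀]
      exact inv_lt_one_of_one_lt₀ hlt
    obtain ⟨n, d, hnd⟩ := P.exists_primeCompl_mul_eq_of_integer x⁻¹ hinv.le
    have hd : P.valuation K (algebraMap (𝓞 K) K d) = 1 :=
      (P.valuation_eq_one_iff_notMem).2 d.2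
    have hvn : P.valuation K (algebraMap (𝓞 K) K n) < 1 := by
      rw [← hnd, map_mul, hd, mul_one]
      exact hinv
    have hn : n ∈ P.asIdeal := (P.valuation_lt_one_iff_mem n).1 hvn
    have hτn : ‖τ (algebraMap (𝓞 K) K n)‖ < 1 := hn
    rw [← hnd, map_mul, norm_mul, hunit d, mul_one, map_inv₀, norm_inv] at hτn
    have hpos : 0 < ‖τ x‖ := norm_pos_iff.2 ((map_ne_zero τ).2 hx0)
    have h1 : 1 < ‖τ x‖ := (inv_lt_one₀ hpos).1 hτn
    linarith
  · intro h
    obtain ⟨n, d, hnd⟩ := P.exists_primeCompl_mul_eq_of_integer x h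
    have h1 : ‖τ x‖ * ‖τ (algebraMap (𝓞 K) K d)‖ = ‖τ (algebraMap (𝓞 K) K n)‖ := by
      rw [← norm_mul, ← map_mul, hnd]
    rw [hunit d, mul_one] at h1
    rw [h1]
    exact norm_emb_le_one q τ n

/-- Unit version of the compatibility. -/
theorem norm_emb_eq_one_iff (τ : K →+* PadicAlgCl q) {x : K} (hx : x ≠ 0) :
    ‖τ x‖ = 1 ↔ (heightOneOfEmb q τ).valuation K x = 1 := by
  have h1 := norm_emb_le_one_iff q τ x
  have h2 := norm_emb_le_one_iff q τ x⁻¹
  rw [map_inv₀, norm_inv, map_inv₀] at h2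
  have hpos : 0 < ‖τ x‖ := norm_pos_iff.2 ((map_ne_zero τ).2 hx)
  have hv0 : (heightOneOfEmb q τ).valuation K x ≠ 0 := (Valuation.ne_zero_iff _).2 hx
  rw [inv_le_one₀ hpos, inv_le_one₀ (zero_lt_iff.2 hv0)] at h2
  constructor
  · intro h
    exact le_antisymm (h1.1 h.le) (h2.1 h.ge)
  · intro h
    exact le_antisymm (h1.2 h.le) (h2.2 h.ge)

end

end Fermat.Agent.S55.H83
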