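/-
S55 (Program C), package C5, leaf B1 (DICT), part 3 (helper83): two embeddings of `K` into
`PadicAlgCl q` with the same prime are conjugate under the local Galois group.
-/
import Mathlib
import Fermat.Agent.S55.H83.DictBasic

set_option autoImplicit false

open NumberField IsDedekindDomain Polynomial

open scoped IntermediateField

namespace Fermat.Agent.S55.H83

noncomputable section

variable (q : ℕ) [Fact q.Prime] {K : Type*} [Field K] [NumberField K]

/-- Two ring homomorphisms from a number field that agree on a primitive element are equal. -/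
theorem ringHom_ext_of_primitive {E : Type*} [Field E] [CharZero E]
    {θ : K} (hθ : ℚ⟮θ⟯ = ⊤) {f g : K →+* E} (h : f θ = g θ) : f = g := by
  have hadj : Algebra.adjoin ℚ {θ} = ⊤ := by
    rw [← IntermediateField.adjoin_simple_toSubalgebra_of_isAlgebraic
      (Algebra.IsAlgebraic.isAlgebraic θ), hθ, IntermediateField.top_toSubalgebra]
  have h1 : f.toRatAlgHom = g.toRatAlgHom := by
    refine AlgHom.ext_of_adjoin_eq_top hadj ?_
    intro x hx
    rw [Set.mem_singleton_iff] at hx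
    subst hx
    exact h
  have h2 := congrArg (fun φ : K →ₐ[ℚ] E => (φ : K →+* E)) h1
  simpa using h2

/-- **Injectivity of the dictionary.**  Two embeddings of `K` into `PadicAlgCl q` that define the
same prime of `𝓞 K` are conjugate under `Gal(PadicAlgCl q / ℚ_q)`. -/
theorem exists_algEquiv_of_heightOneOfEmb_eq (τ τ' : K →+* PadicAlgCl q)
    (h : heightOneOfEmb q τ = heightOneOfEmb q τ') :
    ∃ g : PadicAlgCl q ≃ₐ[ℚ_[q]] PadicAlgCl q,
      τ' = (g : PadicAlgCl q →+* PadicAlgCl q).comp τ := by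
  classical
  -- the two norms have the same unit ball on `K`
  have hball : ∀ y : K, ‖τ y‖ ≤ 1 ↔ ‖τ' y‖ ≤ 1 := fun y => by
    rw [norm_emb_le_one_iff, norm_emb_le_one_iff, h]
  obtain ⟨θ, hθ⟩ := Field.exists_primitive_element ℚ K
  have hint : IsIntegral ℚ_[q] (τ θ) := Algebra.IsIntegral.isIntegral _
  by_cases hroot : aeval (τ' θ) (minpoly ℚ_[q] (τ θ)) = 0
  · -- conjugate roots
    have hconj : IsConjRoot ℚ_[q] (τ θ) (τ' θ) := isConjRoot_of_aeval_eq_zero hint hroot
    obtain ⟨σ, hσ⟩ := isConjRoot_iff_exists_algEquiv.1 hconj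
    refine ⟨σ.symm, ringHom_ext_of_primitive hθ ?_⟩
    show τ' θ = σ.symm (τ θ)
    exact (σ.symm_apply_apply (τ' θ)).symm.trans (congrArg σ.symm hσ)
  · exfalso
    set m := minpoly ℚ_[q] (τ θ) with hm
    set d := m.natDegree with hd
    set ρ := ‖aeval (τ' θ) m‖ with hρ
    have hρpos : 0 < ρ := norm_pos_iff.2 hroot
    have hq1 : (1 : ℝ) < q := by exact_mod_cast (Fact.out : q.Prime).one_lt
    have hq0 : (0 : ℝ) < q := by linarith
    have hqinv : ((q : ℝ))⁻¹ < 1 := inv_lt_one_of_one_lt₀ hq1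
    have hqinv0 : 0 < ((q : ℝ))⁻¹ := inv_pos.2 hq0
    obtain ⟨N, hN⟩ := exists_pow_lt_of_lt_one hρpos hqinv
    set c : ℝ := max 1 (max ‖τ θ‖ ‖τ' θ‖) with hc
    have hc1 : 1 ≤ c := le_max_left _ _
    have hca : ‖τ θ‖ ≤ c := (le_max_left _ _).trans (le_max_right _ _)
    have hca' : ‖τ' θ‖ ≤ c := (le_max_right _ _).trans (le_max_right _ _)
    set B : ℝ := c ^ d with hB
    have hB0 : 0 < B := pow_pos (lt_of_lt_of_le one_pos hc1) d
    have hpowa : ∀ i ∈ Finset.range (d + 1), ‖τ θ‖ ^ i ≤ B := fun i hi =>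
      (pow_le_pow_left₀ (norm_nonneg _) hca i).trans
        (pow_le_pow_right₀ hc1 (Nat.lt_succ_iff.1 (Finset.mem_range.1 hi)))
    have hpowa' : ∀ i ∈ Finset.range (d + 1), ‖τ' θ‖ ^ i ≤ B := fun i hi =>
      (pow_le_pow_left₀ (norm_nonneg _) hca' i).trans
        (pow_le_pow_right₀ hc1 (Nat.lt_succ_iff.1 (Finset.mem_range.1 hi)))
    set ε : ℝ := ((q : ℝ))⁻¹ ^ N / B with hε
    have hεpos : 0 < ε := div_pos (pow_pos hqinv0 N) hB0
    have hεB : ε * B = ((q : ℝ))⁻¹ ^ N := div_mul_cancel₀ _ hB0.ne'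
    -- rational approximations of the coefficients
    choose r hr using fun i : ℕ => Padic.rat_dense q (m.coeff i) hεpos
    set x : K := ∑ i ∈ Finset.range (d + 1), (r i : K) * θ ^ i with hx
    -- the key estimate, for both embeddings
    have key : ∀ (φ : K →+* PadicAlgCl q), (∀ i ∈ Finset.range (d + 1), ‖φ θ‖ ^ i ≤ B) →
        ‖φ x - aeval (φ θ) m‖ ≤ ((q : ℝ))⁻¹ ^ N := by
      intro φ hφ
      have h1 : φ x - aeval (φ θ) m = ∑ i ∈ Finset.range (d + 1),
          algebraMap ℚ_[q] (PadicAlgCl q) ((r i : ℚ_[q]) - m.coeff i) * φ θ ^ i := by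
        rw [aeval_eq_sum_range, hx, map_sum, ← Finset.sum_sub_distrib]
        refine Finset.sum_congr rfl fun i _ => ?_
        rw [map_mul, map_pow, map_ratCast, Algebra.smul_def, map_sub, map_ratCast, sub_mul]
      rw [h1]
      refine IsUltrametricDist.norm_sum_le_of_forall_le_of_nonneg (pow_pos hqinv0 N).le
        fun i hi => ?_
      rw [norm_mul, norm_pow, PadicAlgCl.norm_extends, ← hεB]
      have h2 : ‖(r i : ℚ_[q]) - m.coeff i‖ ≤ ε := by
        rw [norm_sub_rev]
        exact (hr i).le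
      exact mul_le_mul h2 (hφ i hi) (pow_nonneg (norm_nonneg _) i) hεpos.le
    -- `‖τ x‖` is small
    have hτx : ‖τ x‖ ≤ ((q : ℝ))⁻¹ ^ N := by
      have h1 := key τ hpowa
      rwa [hm, minpoly.aeval, sub_zero] at h1
    -- `‖τ' x‖ = ρ`
    have hτ'x : ‖τ' x‖ = ρ := by
      have h1 := key τ' hpowa'
      have h2 : ‖τ' x - aeval (τ' θ) m‖ ≠ ‖aeval (τ' θ) m‖ :=
        (lt_of_le_of_lt h1 hN).ne
      have h3 := IsUltrametricDist.norm_add_eq_max_of_norm_ne_norm h2
      rw [sub_add_cancel] at h3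
      rw [h3, max_eq_right (lt_of_le_of_lt h1 hN).le]
    -- rescale by `q ^ N`
    have hqK : ∀ φ : K →+* PadicAlgCl q, ‖φ ((q : K) ^ N)‖ = ((q : ℝ))⁻¹ ^ N := fun φ => by
      rw [map_pow, map_natCast, norm_pow, norm_natCast_padicAlgCl]
    have hy : ‖τ (x / (q : K) ^ N)‖ ≤ 1 := by
      rw [map_div₀, norm_div, hqK τ]
      exact (div_le_one (pow_pos hqinv0 N)).2 hτx
    have hy' : ¬ ‖τ' (x / (q : K) ^ N)‖ ≤ 1 := by
      rw [map_div₀, norm_div, hqK τ', hτ'x, not_le]
      exact (one_lt_div (pow_pos hqinv0 N)).2 hN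
    exact hy' ((hball _).1 hy)

end

end Fermat.Agent.S55.H83
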