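/-
S55 (Program C), package C5, leaf B1 (DICT), part 2 (helper83): every prime of `𝓞 K` comes from
an embedding of `K` into `PadicAlgCl q`, `q` the residue characteristic.
-/
import Mathlib
import Fermat.Agent.S55.H83.DictBasic

set_option autoImplicit false

open NumberField IsDedekindDomain

namespace Fermat.Agent.S55.H83

noncomputable section

variable {K : Type*} [Field K] [NumberField K]

/-- Every height one prime of `𝓞 K` contains a rational prime. -/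
theorem exists_prime_natCast_mem (P : HeightOneSpectrum (𝓞 K)) :
    ∃ q : ℕ, q.Prime ∧ ((q : ℕ) : 𝓞 K) ∈ P.asIdeal := by
  obtain ⟨p, hp⟩ := CharP.exists (𝓞 K ⧸ P.asIdeal)
  have hdom : IsDomain (𝓞 K ⧸ P.asIdeal) := Ideal.Quotient.isDomain _
  rcases CharP.char_is_prime_or_zero (𝓞 K ⧸ P.asIdeal) p with hprime | h0
  · refine ⟨p, hprime, ?_⟩
    rw [← Ideal.Quotient.eq_zero_iff_mem, map_natCast]
    exact CharP.cast_eq_zero _ p
  · exfalso
    subst h0
    have h1 : ((Ideal.absNorm P.asIdeal : ℕ) : 𝓞 K ⧸ P.asIdeal) = 0 := by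
      rw [← map_natCast (Ideal.Quotient.mk P.asIdeal), Ideal.Quotient.eq_zero_iff_mem]
      exact Ideal.absNorm_mem _
    rw [CharP.cast_eq_zero_iff (𝓞 K ⧸ P.asIdeal) 0, zero_dvd_iff, Ideal.absNorm_eq_zero_iff] at h1
    exact P.ne_bot h1

/-- If the prime `P` contains the rational prime `q`, then `q` divides the norm of every element
of `P`. -/
theorem dvd_norm_of_mem {q : ℕ} (hq : q.Prime) (P : HeightOneSpectrum (𝓞 K))
    (hqP : ((q : ℕ) : 𝓞 K) ∈ P.asIdeal) {x : 𝓞 K} (hx : x ∈ P.asIdeal) :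
    (q : ℤ) ∣ Algebra.norm ℤ x := by
  have h1 : Ideal.absNorm P.asIdeal ∣ Ideal.absNorm (Ideal.span {((q : ℕ) : 𝓞 K)}) :=
    Ideal.absNorm_dvd_absNorm_of_le ((Ideal.span_singleton_le_iff_mem _).2 hqP)
  have h2 : Ideal.absNorm (Ideal.span {((q : ℕ) : 𝓞 K)}) = q ^ Module.finrank ℤ (𝓞 K) := by
    rw [Ideal.absNorm_span_singleton]
    have h3 : ((q : ℕ) : 𝓞 K) = algebraMap ℤ (𝓞 K) (q : ℤ) := by simp
    rw [h3, Algebra.norm_algebraMap, Int.natAbs_pow, Int.natAbs_natCast]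
  rw [h2] at h1
  obtain ⟨k, _, hk⟩ := (Nat.dvd_prime_pow hq).1 h1
  have hk0 : k ≠ 0 := by
    rintro rfl
    rw [pow_zero, Ideal.absNorm_eq_one_iff] at hk
    exact P.isPrime.ne_top hk
  have h4 : q ∣ Ideal.absNorm P.asIdeal := by
    rw [hk]
    exact dvd_pow_self q hk0
  have h5 : Ideal.absNorm P.asIdeal ∣ Ideal.absNorm (Ideal.span {x}) :=
    Ideal.absNorm_dvd_absNorm_of_le ((Ideal.span_singleton_le_iff_mem _).2 hx)
  rw [Ideal.absNorm_span_singleton] at h5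
  exact Int.natCast_dvd.2 (h4.trans h5)

variable (q : ℕ) [Fact q.Prime]

/-- **Surjectivity of the dictionary.**  A prime of `𝓞 K` containing `q` is the prime of an
embedding of `K` into `PadicAlgCl q`. -/
theorem exists_emb_heightOneOfEmb_eq (P : HeightOneSpectrum (𝓞 K))
    (hqP : ((q : ℕ) : 𝓞 K) ∈ P.asIdeal) :
    ∃ τ : K →+* PadicAlgCl q, heightOneOfEmb q τ = P := by
  classical
  by_contra hcon
  have hne : ∀ τ : K →+* PadicAlgCl q, heightOneOfEmb q τ ≠ P := fun τ h => hcon ⟨τ, h⟩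
  let σ₀ : K →ₐ[ℚ] PadicAlgCl q := IsAlgClosed.lift
  -- prime avoidance
  have hnot : ¬ ((P.asIdeal : Set (𝓞 K)) ⊆
      ⋃ σ ∈ ((Finset.univ : Finset (K →ₐ[ℚ] PadicAlgCl q)) : Set (K →ₐ[ℚ] PadicAlgCl q)),
        (primeOfEmb q (σ : K →+* PadicAlgCl q) : Set (𝓞 K))) := by
    intro hsub
    rw [Ideal.subset_union_prime σ₀ σ₀ (fun σ _ _ _ => primeOfEmb_isPrime q _)] at hsub
    obtain ⟨σ, _, hσ⟩ := hsub
    have hmax : P.asIdeal.IsMaximal := P.isMaximal
    have heq : P.asIdeal = primeOfEmb q (σ : K →+* PadicAlgCl q) :=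
      hmax.eq_of_le (primeOfEmb_isPrime q _).ne_top hσ
    exact hne (σ : K →+* PadicAlgCl q) (HeightOneSpectrum.ext heq.symm)
  obtain ⟨x, hxP, hx⟩ := Set.not_subset.1 hnot
  have hx' : ∀ σ : K →ₐ[ℚ] PadicAlgCl q, ‖σ (algebraMap (𝓞 K) K x)‖ = 1 := by
    intro σ
    have h1 : x ∉ primeOfEmb q (σ : K →+* PadicAlgCl q) := by
      intro hmem
      exact hx (Set.mem_biUnion (Finset.mem_coe.2 (Finset.mem_univ σ)) hmem)
    exact norm_emb_eq_one_of_notMem q h1
  -- the norm is a product over the embeddings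
  have hprod := Algebra.norm_eq_prod_embeddings ℚ (PadicAlgCl q) (algebraMap (𝓞 K) K x)
  have hnorm1 : ‖algebraMap ℚ (PadicAlgCl q) (Algebra.norm ℚ (algebraMap (𝓞 K) K x))‖ = 1 := by
    rw [hprod, norm_prod]
    exact Finset.prod_eq_one fun σ _ => hx' σ
  -- but `q` divides the norm
  have hdvd : (q : ℤ) ∣ Algebra.norm ℤ x := dvd_norm_of_mem (Fact.out : q.Prime) P hqP hxP
  have hlt : ‖algebraMap ℚ (PadicAlgCl q) (Algebra.norm ℚ (algebraMap (𝓞 K) K x))‖ < 1 := by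
    have h1 : Algebra.norm ℚ (algebraMap (𝓞 K) K x) = ((Algebra.norm ℤ x : ℤ) : ℚ) :=
      (Algebra.coe_norm_int x).symm
    rw [h1, map_intCast]
    have h2 : ((Algebra.norm ℤ x : ℤ) : PadicAlgCl q) =
        algebraMap ℚ_[q] (PadicAlgCl q) ((Algebra.norm ℤ x : ℤ) : ℚ_[q]) := (map_intCast _ _).symm
    rw [h2, PadicAlgCl.norm_extends]
    exact Padic.norm_intCast_lt_one_iff.2 hdvd
  rw [hnorm1] at hlt
  exact lt_irrefl _ hlt

end

end Fermat.Agent.S55.H83
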