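/-
S55 (Program C), package C5, leaf B1 (DICT) (helper83): the finite places of a number field `K`
in the embedding model (`G_q`-orbits of embeddings `K →+* PadicAlgCl q`, `q` prime) are the
height one primes of `𝓞 K`, compatibly with the valuations.  `dictStatement` is
`Fermat.Agent.S55.H88.DictStatement K`, verbatim.
-/
import Mathlib
import Fermat.Agent.S55.H88.SemiLocalSpec
import Fermat.Agent.S55.H83.DictSurj
import Fermat.Agent.S55.H83.DictInj

set_option autoImplicit false

open NumberField IsDedekindDomain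

namespace Fermat.Agent.S55.H83

open Fermat.Agent.S55.H88

noncomputable section

attribute [local instance] Fermat.Agent.S55.H88.factOfPrimes

variable (K : Type*) [Field K] [NumberField K]

/-- The dictionary map: the prime of `𝓞 K` of a finite place. -/
def dictFun : FinPlace K → HeightOneSpectrum (𝓞 K) := fun v =>
  Quotient.liftOn v.2 (fun τ => heightOneOfEmb (v.1 : ℕ) τ) (by
    intro τ τ' hττ'
    obtain ⟨g, rfl⟩ := hττ'
    exact (heightOneOfEmb_comp _ g τ).symm)

variable {K}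

theorem dictFun_mk (q : Nat.Primes) (τ : K →+* PadicAlgCl (q : ℕ)) :
    dictFun K ⟨q, placeOf (q : ℕ) τ⟩ = heightOneOfEmb (q : ℕ) τ := rfl

theorem dictFun_eq (v : FinPlace K) : dictFun K v = heightOneOfEmb (v.1 : ℕ) v.emb := by
  obtain ⟨q, w⟩ := v
  have h : w = placeOf (q : ℕ) (Quotient.out w) := (Quotient.out_eq w).symm
  conv_lhs => rw [h]
  rfl

theorem natCast_mem_dictFun (v : FinPlace K) : (((v.1 : ℕ) : ℕ) : 𝓞 K) ∈ (dictFun K v).asIdeal := by
  rw [dictFun_eq]
  exact natCast_mem_primeOfEmb (v.1 : ℕ) v.emb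

theorem dictFun_injective : Function.Injective (dictFun K) := by
  rintro ⟨q, w⟩ ⟨q', w'⟩ h
  -- the residue characteristics agree
  have hqq' : q = q' := by
    by_contra hne
    have hne' : (q : ℕ) ≠ (q' : ℕ) := fun h' => hne (Subtype.ext h')
    have hcop : Nat.Coprime (q : ℕ) (q' : ℕ) := (Nat.coprime_primes q.2 q'.2).2 hne'
    obtain ⟨a, b, hab⟩ := Nat.isCoprime_iff_coprime.2 hcop
    have h1 := natCast_mem_dictFun (⟨q, w⟩ : FinPlace K)
    have h2 := natCast_mem_dictFun (⟨q', w'⟩ : FinPlace K)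
    rw [← h] at h2
    have h3 : (1 : 𝓞 K) ∈ (dictFun K ⟨q, w⟩).asIdeal := by
      have h4 : ((a : 𝓞 K) * ((q : ℕ) : 𝓞 K) + (b : 𝓞 K) * ((q' : ℕ) : 𝓞 K)) = 1 := by
        have := congrArg (Int.cast : ℤ → 𝓞 K) hab
        push_cast at this
        exact this
      rw [← h4]
      exact Ideal.add_mem _ (Ideal.mul_mem_left _ _ h1) (Ideal.mul_mem_left _ _ h2)
    exact (dictFun K ⟨q, w⟩).isPrime.ne_top ((Ideal.eq_top_iff_one _).2 h3)
  subst hqq'
  congr 1
  revert h
  refine Quotient.inductionOn₂ w w' fun τ τ' h => ?_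
  have h' : heightOneOfEmb (q : ℕ) τ = heightOneOfEmb (q : ℕ) τ' := h
  obtain ⟨g, hg⟩ := exists_algEquiv_of_heightOneOfEmb_eq (q : ℕ) τ τ' h'
  exact Quotient.sound ⟨g, hg⟩

theorem dictFun_surjective : Function.Surjective (dictFun K) := by
  intro P
  obtain ⟨q, hq, hqP⟩ := exists_prime_natCast_mem P
  have hfact : Fact q.Prime := ⟨hq⟩
  obtain ⟨τ, hτ⟩ := exists_emb_heightOneOfEmb_eq q P hqP
  exact ⟨⟨⟨q, hq⟩, placeOf q τ⟩, hτ⟩

variable (K)

/-- The dictionary between finite places in the embedding model and primes of `𝓞 K`. -/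
def dictEquiv : FinPlace K ≃ HeightOneSpectrum (𝓞 K) :=
  Equiv.ofBijective (dictFun K) ⟨dictFun_injective, dictFun_surjective⟩

variable {K}

@[simp]
theorem dictEquiv_apply (v : FinPlace K) : dictEquiv K v = heightOneOfEmb (v.1 : ℕ) v.emb :=
  dictFun_eq v

theorem norm_emb_le_one_iff_dictEquiv (v : FinPlace K) (x : K) :
    ‖v.emb x‖ ≤ 1 ↔ (dictEquiv K v).valuation K x ≤ 1 := by
  rw [dictEquiv_apply]
  exact norm_emb_le_one_iff (v.1 : ℕ) v.emb x

theorem norm_emb_eq_one_iff_dictEquiv (v : FinPlace K) {x : K} (hx : x ≠ 0) :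
    ‖v.emb x‖ = 1 ↔ (dictEquiv K v).valuation K x = 1 := by
  rw [dictEquiv_apply]
  exact norm_emb_eq_one_iff (v.1 : ℕ) v.emb hx

variable (K)

/-- **(B1 = DICT)**, verbatim. -/
theorem dictStatement : DictStatement K := by
  refine ⟨dictEquiv K, fun v x => norm_emb_le_one_iff_dictEquiv v x, fun v => ?_⟩
  rw [dictEquiv_apply, Int.cast_natCast]
  exact natCast_mem_primeOfEmb (v.1 : ℕ) v.emb

end

end Fermat.Agent.S55.H83
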