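/-
S55 (Program C), package C7, leaf (NORM) (helper83): field-only facts about the norm group of
the Kummer algebra `F[X]/(X^p - a)`.

* `kummerNormGroup F p a : Subgroup Fˣ` — the norms of the units of `F[X]/(X^p - a)`;
* `pow_mem_kummerNormGroup` — `p`-th powers are norms;
* `self_mem_kummerNormGroup` — for `p` odd, `a` itself is a norm (the norm of the root);
* `kummerNormGroup_eq_top_of_pow` — if `F` contains a primitive `p`-th root of unity and `a` is a
  `p`-th power, every element of `Fˣ` is a norm (the algebra splits as `F^p`).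
-/
import Mathlib

set_option autoImplicit false

open Polynomial

namespace Fermat.Agent.S55.H83

/-- The norm of an element of the product algebra `ι → F` is the product of its coordinates. -/
theorem norm_pi_eq_prod {F : Type*} [CommRing F] {ι : Type*} [Fintype ι] [DecidableEq ι]
    (w : ι → F) : Algebra.norm F w = ∏ i, w i := by
  rw [Algebra.norm_eq_matrix_det (Pi.basisFun F ι)]
  have h : Algebra.leftMulMatrix (Pi.basisFun F ι) w = Matrix.diagonal w := by
    ext i j
    rw [Algebra.leftMulMatrix_eq_repr_mul, Pi.basisFun_repr, Pi.basisFun_apply, Pi.mul_apply,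
      Matrix.diagonal_apply, Pi.single_apply]
    by_cases hij : i = j
    · subst hij
      simp
    · simp [hij]
  rw [h, Matrix.det_diagonal]

section Kummer

variable (F : Type*) [Field F] (p : ℕ) (a : F)

/-- The Kummer algebra `F[X]/(X^p - a)`. -/
abbrev KummerAlg : Type _ := AdjoinRoot (X ^ p - C a : F[X])

/-- The norm group of the Kummer algebra `F[X]/(X^p - a)`: the subgroup of `Fˣ` of norms of
units.  When `X^p - a` is irreducible this is the norm group of the field extension
`F(a^{1/p})/F`. -/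
noncomputable def kummerNormGroup : Subgroup Fˣ :=
  (Units.map (Algebra.norm F : KummerAlg F p a →* F)).range

variable {F p a}

theorem mem_kummerNormGroup {x : Fˣ} :
    x ∈ kummerNormGroup F p a ↔ ∃ u : (KummerAlg F p a)ˣ, Algebra.norm F (u : KummerAlg F p a) = x := by
  constructor
  · rintro ⟨u, rfl⟩
    exact ⟨u, rfl⟩
  · rintro ⟨u, hu⟩
    exact ⟨u, Units.ext hu⟩

theorem kummer_monic (hp : p ≠ 0) : (X ^ p - C a : F[X]).Monic := monic_X_pow_sub_C a hp

theorem kummer_natDegree : (X ^ p - C a : F[X]).natDegree = p :=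
  natDegree_X_pow_sub_C

/-- `p`-th powers are norms from the Kummer algebra. -/
theorem pow_mem_kummerNormGroup (hp : p ≠ 0) (x : Fˣ) : x ^ p ∈ kummerNormGroup F p a := by
  rw [mem_kummerNormGroup]
  refine ⟨Units.map (algebraMap F (KummerAlg F p a) : F →* KummerAlg F p a) x, ?_⟩
  have h := Algebra.norm_algebraMap_of_basis (AdjoinRoot.powerBasis' (kummer_monic (a := a) hp)).basis
    (x : F)
  rw [Fintype.card_fin] at h
  rw [Units.coe_map, MonoidHom.coe_coe, h, Units.val_pow_eq_pow_val]
  congr 1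
  exact kummer_natDegree

/-- The `p`-th powers of `Fˣ` are contained in the norm group. -/
theorem range_powMonoidHom_le_kummerNormGroup (hp : p ≠ 0) :
    (powMonoidHom p : Fˣ →* Fˣ).range ≤ kummerNormGroup F p a := by
  rintro _ ⟨x, rfl⟩
  exact pow_mem_kummerNormGroup hp x

/-- In the Kummer algebra, `root ^ p = a`. -/
theorem kummer_root_pow : (AdjoinRoot.root (X ^ p - C a : F[X])) ^ p =
    algebraMap F (KummerAlg F p a) a := by
  have h := AdjoinRoot.eval₂_root (X ^ p - C a : F[X])
  rw [eval₂_sub, eval₂_X_pow, eval₂_C, sub_eq_zero] at h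
  rw [h, AdjoinRoot.algebraMap_eq]

/-- The root of `X^p - a` as a unit of the Kummer algebra, for `a ≠ 0` and `p ≠ 0`. -/
noncomputable def kummerRootUnit (hp : p ≠ 0) (ha : a ≠ 0) : (KummerAlg F p a)ˣ :=
  Units.mkOfMulEqOne (AdjoinRoot.root (X ^ p - C a : F[X]))
    ((AdjoinRoot.root (X ^ p - C a : F[X])) ^ (p - 1) * algebraMap F (KummerAlg F p a) a⁻¹) (by
      rw [← mul_assoc, ← pow_succ', Nat.sub_add_cancel (Nat.pos_of_ne_zero hp), kummer_root_pow,
        ← map_mul, mul_inv_cancel₀ ha, map_one])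

@[simp]
theorem coe_kummerRootUnit (hp : p ≠ 0) (ha : a ≠ 0) :
    ((kummerRootUnit hp ha : (KummerAlg F p a)ˣ) : KummerAlg F p a) =
      AdjoinRoot.root (X ^ p - C a : F[X]) := rfl

/-- The norm of the root of `X^p - a` is `(-1)^(p+1) a`. -/
theorem norm_kummer_root (hp : p ≠ 0) :
    Algebra.norm F (AdjoinRoot.root (X ^ p - C a : F[X])) = (-1) ^ (p + 1) * a := by
  have hm : (X ^ p - C a : F[X]).Monic := kummer_monic hp
  have h := Algebra.PowerBasis.norm_gen_eq_coeff_zero_minpoly (AdjoinRoot.powerBasis' hm)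
  rw [AdjoinRoot.powerBasis'_gen, AdjoinRoot.powerBasis'_dim, kummer_natDegree,
    AdjoinRoot.minpoly_root hm.ne_zero, hm.leadingCoeff, inv_one, map_one, mul_one] at h
  rw [h, coeff_sub, coeff_X_pow, coeff_C_zero, if_neg (Ne.symm hp), zero_sub, pow_succ]
  ring

/-- For `p` odd, `a` is the norm of the root of `X^p - a`. -/
theorem self_mem_kummerNormGroup (hp : Odd p) (x : Fˣ) :
    x ∈ kummerNormGroup F p (x : F) := by
  have hp0 : p ≠ 0 := by
    rintro rfl
    simp at hp
  rw [mem_kummerNormGroup]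
  refine ⟨kummerRootUnit hp0 x.ne_zero, ?_⟩
  rw [coe_kummerRootUnit, norm_kummer_root hp0, Even.neg_one_pow (Odd.add_one hp), one_mul]

/-- **Split case.**  If `F` contains a primitive `p`-th root of unity and `a = c ^ p` with
`c ≠ 0`, then the Kummer algebra `F[X]/(X^p - a)` is isomorphic to `F^p`. -/
theorem nonempty_kummerAlg_algEquiv_pi {ζ : F} (hζ : IsPrimitiveRoot ζ p) (hp : p ≠ 0) {c : F}
    (hc : c ≠ 0) (hca : c ^ p = a) : Nonempty (KummerAlg F p a ≃ₐ[F] (Fin p → F)) := by
  classical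
  have hm : (X ^ p - C a : F[X]).Monic := kummer_monic hp
  -- the roots
  let r : Fin p → F := fun i => ζ ^ (i : ℕ) * c
  have hr_inj : Function.Injective r := by
    intro i j hij
    have h1 : ζ ^ (i : ℕ) = ζ ^ (j : ℕ) := mul_right_cancel₀ hc hij
    exact Fin.ext (hζ.pow_inj i.2 j.2 h1)
  have hprod : (X ^ p - C a : F[X]) = ∏ i : Fin p, (X - C (r i)) := by
    rw [X_pow_sub_C_eq_prod hζ (Nat.pos_of_ne_zero hp) hca, Finset.prod_range]
  have hroot : ∀ i, (X ^ p - C a : F[X]).eval₂ (Algebra.ofId F F : F →+* F) (r i) = 0 := by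
    intro i
    rw [hprod, eval₂_finsetProd]
    refine Finset.prod_eq_zero (Finset.mem_univ i) ?_
    simp
  -- evaluation maps
  let ev : Fin p → (KummerAlg F p a →ₐ[F] F) := fun i =>
    AdjoinRoot.liftAlgHom (X ^ p - C a : F[X]) (Algebra.ofId F F) (r i) (hroot i)
  let Φ : KummerAlg F p a →ₐ[F] (Fin p → F) := AlgHom.pi ev
  have hΦ_inj : Function.Injective Φ := by
    rw [injective_iff_map_eq_zero]
    intro x hx
    obtain ⟨h, rfl⟩ := AdjoinRoot.mk_surjective x
    rw [AdjoinRoot.mk_eq_zero, hprod]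
    refine Finset.prod_dvd_of_coprime
      (fun i _ j _ hij => pairwise_coprime_X_sub_C hr_inj hij) (fun i _ => ?_)
    rw [dvd_iff_isRoot]
    have h1 : Φ (AdjoinRoot.mk (X ^ p - C a : F[X]) h) i = 0 := congrFun hx i
    have h2 : Φ (AdjoinRoot.mk (X ^ p - C a : F[X]) h) i =
        eval₂ (Algebra.ofId F F : F →+* F) (r i) h := rfl
    rw [h2] at h1
    have h3 : (Algebra.ofId F F : F →+* F) = RingHom.id F := by
      ext
      simp
    rw [h3, eval₂_id] at h1
    exact h1
  have hfin : Module.finrank F (KummerAlg F p a) = Module.finrank F (Fin p → F) := by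
    rw [(AdjoinRoot.powerBasis' hm).finrank, AdjoinRoot.powerBasis'_dim, kummer_natDegree,
      Module.finrank_fin_fun]
  have hfd : Module.Finite F (KummerAlg F p a) := hm.finite_adjoinRoot
  have hΦ_surj : Function.Surjective Φ :=
    (LinearMap.injective_iff_surjective_of_finrank_eq_finrank hfin (f := Φ.toLinearMap)).1 hΦ_inj
  exact ⟨AlgEquiv.ofBijective Φ ⟨hΦ_inj, hΦ_surj⟩⟩

/-- **Split case.**  If `F` contains a primitive `p`-th root of unity and `a` is a nonzero
`p`-th power, every element of `Fˣ` is a norm from the Kummer algebra `F[X]/(X^p - a)`. -/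
theorem kummerNormGroup_eq_top_of_pow {ζ : F} (hζ : IsPrimitiveRoot ζ p) (hp : p ≠ 0) {c : F}
    (hc : c ≠ 0) (hca : c ^ p = a) : kummerNormGroup F p a = ⊤ := by
  classical
  obtain ⟨e⟩ := nonempty_kummerAlg_algEquiv_pi hζ hp hc hca
  rw [eq_top_iff]
  intro y _
  let i₀ : Fin p := ⟨0, Nat.pos_of_ne_zero hp⟩
  let w : (Fin p → F)ˣ := Units.mkOfMulEqOne (Pi.mulSingle i₀ (y : F))
    (Pi.mulSingle i₀ ((y⁻¹ : Fˣ) : F)) (by
      rw [← Pi.mulSingle_mul, Units.mul_inv, Pi.mulSingle_one])
  rw [mem_kummerNormGroup]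
  refine ⟨Units.map (e.symm : (Fin p → F) →* KummerAlg F p a) w, ?_⟩
  rw [Units.coe_map, MonoidHom.coe_coe, Algebra.norm_eq_of_algEquiv e.symm, norm_pi_eq_prod]
  change ∏ i, Pi.mulSingle i₀ (y : F) i = _
  rw [Finset.prod_pi_mulSingle' i₀ (y : F) Finset.univ, if_pos (Finset.mem_univ _)]

/-- The form consumed by the second inequality: if `F` contains a primitive `p`-th root of unity
and `x : Fˣ` is a `p`-th power, the norm group of `F[X]/(X^p - x)` is everything. -/
theorem kummerNormGroup_eq_top_of_mem_range {ζ : F} (hζ : IsPrimitiveRoot ζ p) (hp : p ≠ 0)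
    {x : Fˣ} (hx : x ∈ (powMonoidHom p : Fˣ →* Fˣ).range) : kummerNormGroup F p (x : F) = ⊤ := by
  obtain ⟨c, rfl⟩ := hx
  exact kummerNormGroup_eq_top_of_pow hζ hp c.ne_zero (by simp)

end Kummer

end Fermat.Agent.S55.H83
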