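/-
S55 (Program C), package C7, leaf (NORM) (helper83): the three field-only norm statements of
`Fermat/Agent/S55/H8/NormGroup.lean`, verbatim, and the field model of the Kummer norm group.
-/
import Mathlib
import Fermat.Agent.S55.H8.NormGroup
import Fermat.Agent.S55.H83.KummerNorm

set_option autoImplicit false

open Polynomial

namespace Fermat.Agent.S55.H83

universe u

/-- The two definitions of the Kummer norm group agree. -/
theorem h8_kummerNormGroup_eq (p : ℕ) {F : Type*} [Field F] (g : F) :
    Fermat.Agent.S55.H8.kummerNormGroup p g = kummerNormGroup F p g := rfl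

/-- (NORM-1), verbatim. -/
theorem powLeNormStatement : Fermat.Agent.S55.H8.PowLeNormStatement.{u} := by
  intro p hp F _ g x
  rw [h8_kummerNormGroup_eq]
  exact pow_mem_kummerNormGroup hp.ne_zero x

/-- (NORM-2), verbatim. -/
theorem selfMemNormStatement : Fermat.Agent.S55.H8.SelfMemNormStatement.{u} := by
  intro p hp hp2 F _ g
  rw [h8_kummerNormGroup_eq]
  exact self_mem_kummerNormGroup (hp.odd_of_ne_two hp2) g

/-- (NORM-3), verbatim. -/
theorem normTopOfPowStatement : Fermat.Agent.S55.H8.NormTopOfPowStatement.{u} := by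
  intro p hp F _ ζ hζ c
  rw [h8_kummerNormGroup_eq]
  exact kummerNormGroup_eq_top_of_pow hζ hp.ne_zero c.ne_zero rfl

/-! ### The field model (NORM-4) -/

/-- The group of norms of units only depends on the algebra up to isomorphism. -/
theorem range_unitsMap_norm_eq_of_algEquiv {F A B : Type*} [CommRing F] [CommRing A] [CommRing B]
    [Algebra F A] [Algebra F B] (e : A ≃ₐ[F] B) :
    (Units.map (Algebra.norm F : A →* F)).range = (Units.map (Algebra.norm F : B →* F)).range := by
  ext x
  constructor
  · rintro ⟨u, rfl⟩
    refine ⟨Units.map (e : A →* B) u, Units.ext ?_⟩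
    exact Algebra.norm_eq_of_algEquiv e (u : A)
  · rintro ⟨u, rfl⟩
    refine ⟨Units.map (e.symm : B →* A) u, Units.ext ?_⟩
    exact Algebra.norm_eq_of_algEquiv e.symm (u : B)

/-- If `X^p - g` is irreducible and `K/F` is a field extension of degree `p` containing a root
of it, then `K ≃ₐ[F] F[X]/(X^p - g)`. -/
theorem nonempty_kummerAlg_algEquiv_of_irreducible {F K : Type*} [Field F] [Field K] [Algebra F K]
    {p : ℕ} {g : F} (hp : p ≠ 0) (hirr : Irreducible (X ^ p - C g : F[X])) (α : K)
    (hα : α ^ p = algebraMap F K g) (hdeg : Module.finrank F K = p) :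
    Nonempty (KummerAlg F p g ≃ₐ[F] K) := by
  have hm : (X ^ p - C g : F[X]).Monic := kummer_monic hp
  have hfact : Fact (Irreducible (X ^ p - C g : F[X])) := ⟨hirr⟩
  have hroot : (X ^ p - C g : F[X]).eval₂ (Algebra.ofId F K : F →+* K) α = 0 := by
    rw [eval₂_sub, eval₂_X_pow, eval₂_C, hα, sub_eq_zero]
    rfl
  let φ : KummerAlg F p g →ₐ[F] K :=
    AdjoinRoot.liftAlgHom (X ^ p - C g : F[X]) (Algebra.ofId F K) α hroot
  have hinj : Function.Injective φ := (φ : KummerAlg F p g →+* K).injective
  have hfin : Module.finrank F (KummerAlg F p g) = Module.finrank F K := by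
    rw [(AdjoinRoot.powerBasis' hm).finrank, AdjoinRoot.powerBasis'_dim, kummer_natDegree, hdeg]
  have hfd : Module.Finite F (KummerAlg F p g) := hm.finite_adjoinRoot
  have hfdK : Module.Finite F K := Module.finite_of_finrank_pos (by rw [hdeg]; omega)
  have hsurj : Function.Surjective φ :=
    (LinearMap.injective_iff_surjective_of_finrank_eq_finrank hfin (f := φ.toLinearMap)).1 hinj
  exact ⟨AlgEquiv.ofBijective φ ⟨hinj, hsurj⟩⟩

/-- **(NORM-4), irreducible form.**  If `X^p - g` is irreducible and `K/F` is a field extension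
of degree `p` containing a root of it, the Kummer norm group is the norm group of `K/F`. -/
theorem kummerNormGroup_eq_range_norm_of_irreducible {F K : Type*} [Field F] [Field K]
    [Algebra F K] {p : ℕ} {g : F} (hp : p ≠ 0) (hirr : Irreducible (X ^ p - C g : F[X])) (α : K)
    (hα : α ^ p = algebraMap F K g) (hdeg : Module.finrank F K = p) :
    Fermat.Agent.S55.H8.kummerNormGroup p g = (Units.map (Algebra.norm F : K →* F)).range := by
  obtain ⟨e⟩ := nonempty_kummerAlg_algEquiv_of_irreducible hp hirr α hα hdeg
  exact range_unitsMap_norm_eq_of_algEquiv e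

/-- **(NORM-4), non-`p`-th-power form.**  `p` prime, `g` not a `p`-th power in `F`, `K/F` of
degree `p` containing a `p`-th root of `g`: the Kummer norm group is the norm group of `K/F`. -/
theorem kummerNormGroup_eq_range_norm_of_not_pow {F K : Type*} [Field F] [Field K]
    [Algebra F K] {p : ℕ} (hp : p.Prime) {g : F} (hg : ∀ b : F, b ^ p ≠ g) (α : K)
    (hα : α ^ p = algebraMap F K g) (hdeg : Module.finrank F K = p) :
    Fermat.Agent.S55.H8.kummerNormGroup p g = (Units.map (Algebra.norm F : K →* F)).range :=
  kummerNormGroup_eq_range_norm_of_irreducible hp.ne_zero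
    (X_pow_sub_C_irreducible_of_prime hp hg) α hα hdeg

/-- For `p` prime and `g` not a `p`-th power, the Kummer algebra `F[X]/(X^p - g)` is a field
extension of degree `p` of `F` generated by a `p`-th root of `g` (so the hypotheses of (NORM-4)
can always be met). -/
theorem kummerAlg_finrank {F : Type*} [Field F] {p : ℕ} (hp : p ≠ 0) (g : F) :
    Module.finrank F (KummerAlg F p g) = p := by
  rw [(AdjoinRoot.powerBasis' (kummer_monic (a := g) hp)).finrank, AdjoinRoot.powerBasis'_dim,
    kummer_natDegree]

end Fermat.Agent.S55.H83
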