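import Mathlib
import Fermat.Agent.S55.H88.LayerDefs

/-!
Program C (S55), C5 → C8 glue (helper83): compatibility of the local invariants of the concrete
layers `H88.layerOf k K` with inflation, `(H88.inflOf k K K').Compat`.

* `locGalToGlobal_unique`, `linvAt_eq_of_pres`, `exists_pres`: independence of `H88.linvAt` of the
  presentation of the base field (propositionally equal intermediate fields), by substitution;
* `linvAt_infl`: `linvAt q k τ'' ∘ Infl = linvAt q k (τ'' ∘ algebraMap K K')` from C3's
  `H66.LeafInvInfl`;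
* `inflOf_compat`: `(H88.inflOf k K K').Compat` from `H66.LeafInvInfl` and (LINV-INDEP) for `K / k`
  (hypothesis `hIndep`, verbatim the body of `H88.LinvIndepStatement k K`).
-/

set_option autoImplicit false
set_option linter.style.haveILetI false
set_option linter.unusedSectionVars false

open CategoryTheory

noncomputable section

namespace Fermat.Agent.S55.H83

open Fermat.Agent.S55.H88 Fermat.Agent.S55.H66

variable (q : ℕ) [Fact q.Prime]

section Pres

variable (k : Type) {K : Type} [Field k] [Field K] [Algebra k K] [Normal k K]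
  (τ : K →+* PadicAlgCl q)

/-- `locGalToGlobal` is characterised by its defining property. -/
theorem locGalToGlobal_unique
    (ψ : (locExt q k τ ≃ₐ[locBase q k τ] locExt q k τ) →* (K ≃ₐ[k] K))
    (hψ : ∀ (α : locExt q k τ ≃ₐ[locBase q k τ] locExt q k τ) (x : K),
      α (locExtEmb q k τ x) = locExtEmb q k τ (ψ α x)) :
    ψ = locGalToGlobal q k τ := by
  refine MonoidHom.ext fun α => AlgEquiv.ext fun x => (locExtEmb q k τ).injective ?_
  rw [← hψ, locGalToGlobal_spec]

/-- Every presentation `(B, M)` of the local extension at `τ` by an intermediate field `B` equal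
to `locBase q k τ` and `M` with the same elements as `locField q τ` carries the structure of
`H88.LayerDefs`. -/
theorem exists_pres (B : IntermediateField ℚ_[q] (PadicAlgCl q)) (hB : B = locBase q k τ)
    (M : IntermediateField B (PadicAlgCl q)) (hM : ∀ z, z ∈ M ↔ z ∈ locField q τ) :
    Normal B M ∧ ∃ (ψ : (M ≃ₐ[B] M) →* (K ≃ₐ[k] K)) (e : K →+* M)
      (u : Rep.res ψ (Rep.ofAlgebraAutOnUnits k K) ⟶ Rep.ofAlgebraAutOnUnits B M),
      (∀ x, ((e x : M) : PadicAlgCl q) = τ x) ∧ (∀ (α : M ≃ₐ[B] M) (x : K), α (e x) = e (ψ α x)) ∧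
      ∀ x : Additive Kˣ, (((Additive.toMul (u.hom x) : Mˣ) : M) : PadicAlgCl q)
        = τ ((Additive.toMul x : Kˣ) : K) := by
  subst hB
  obtain rfl : M = locExt q k τ := SetLike.ext hM
  exact ⟨inferInstance, locGalToGlobal q k τ, locExtEmb q k τ, globalToLocUnits q k τ,
    fun _ => rfl, locGalToGlobal_spec q k τ, fun _ => rfl⟩

/-- The local invariant computed in any presentation `(B, M, ψ, e, u)` is `H88.linvAt`. -/
theorem linvAt_eq_of_pres (B : IntermediateField ℚ_[q] (PadicAlgCl q)) (hB : B = locBase q k τ)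
    (M : IntermediateField B (PadicAlgCl q)) (hM : ∀ z, z ∈ M ↔ z ∈ locField q τ)
    [Normal B M] (ψ : (M ≃ₐ[B] M) →* (K ≃ₐ[k] K)) (e : K →+* M)
    (u : Rep.res ψ (Rep.ofAlgebraAutOnUnits k K) ⟶ Rep.ofAlgebraAutOnUnits B M)
    (he : ∀ x, ((e x : M) : PadicAlgCl q) = τ x)
    (hψ : ∀ (α : M ≃ₐ[B] M) (x : K), α (e x) = e (ψ α x))
    (hu : ∀ x : Additive Kˣ, (((Additive.toMul (u.hom x) : Mˣ) : M) : PadicAlgCl q)
        = τ ((Additive.toMul x : Kˣ) : K))
    (α : groupCohomology (Rep.ofAlgebraAutOnUnits k K) 2) :
    H66.inv q M ((groupCohomology.map ψ u 2).hom α) = linvAt q k τ α := by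
  subst hB
  obtain rfl : M = locExt q k τ := SetLike.ext hM
  obtain rfl : e = locExtEmb q k τ := RingHom.ext fun x => Subtype.ext (he x)
  obtain rfl : ψ = locGalToGlobal q k τ := locGalToGlobal_unique q k τ ψ hψ
  obtain rfl : u = globalToLocUnits q k τ := by
    refine Rep.hom_ext (Representation.IntertwiningMap.ext (LinearMap.ext fun x => ?_))
    exact congrArg Additive.ofMul (Units.ext (Subtype.ext (hu x)))
  rfl

end Pres

section Inst

/-- finiteness is inherited by a presentation over an intermediate base -/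
theorem finiteDimensional_of_mem_iff (B : IntermediateField ℚ_[q] (PadicAlgCl q))
    (M : IntermediateField B (PadicAlgCl q)) (E : IntermediateField ℚ_[q] (PadicAlgCl q))
    (hM : ∀ z, z ∈ M ↔ z ∈ E) [FiniteDimensional ℚ_[q] E] : FiniteDimensional B M := by
  have h1 : M.restrictScalars ℚ_[q] = E := SetLike.ext hM
  haveI : FiniteDimensional ℚ_[q] (M.restrictScalars ℚ_[q]) := h1 ▸ inferInstance
  haveI : FiniteDimensional ℚ_[q] M := inferInstanceAs (FiniteDimensional ℚ_[q] (M.restrictScalars ℚ_[q]))
  exact FiniteDimensional.right ℚ_[q] B M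

theorem isGalois_of_normal (B : IntermediateField ℚ_[q] (PadicAlgCl q))
    (M : IntermediateField B (PadicAlgCl q)) [Normal B M] : IsGalois B M := by
  haveI : CharZero B := inferInstance
  exact ⟨⟩

end Inst

section Infl

variable (k K K' : Type) [Field k] [Field K] [Field K'] [Algebra k K] [Algebra k K']
  [Algebra K K'] [IsScalarTower k K K'] [Normal k K] [Normal k K']
  [NumberField k] [NumberField K] [NumberField K']

theorem locBase_comp_algebraMap (τ'' : K' →+* PadicAlgCl q) :
    locBase q k τ'' = locBase q k (τ''.comp (algebraMap K K')) := by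
  have h : τ''.comp (algebraMap k K') = (τ''.comp (algebraMap K K')).comp (algebraMap k K) := by
    rw [RingHom.comp_assoc, ← IsScalarTower.algebraMap_eq]
  show locField q _ = locField q _
  rw [h]

theorem locField_comp_le (τ'' : K' →+* PadicAlgCl q) :
    locField q (τ''.comp (algebraMap K K')) ≤ locField q τ'' :=
  IntermediateField.adjoin.mono _ _ _ (by
    rintro _ ⟨x, rfl⟩
    exact ⟨algebraMap K K' x, rfl⟩)

/-- **Local inflation.** -/
theorem linvAt_infl (hInfl : H66.LeafInvInfl q) (τ'' : K' →+* PadicAlgCl q)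
    (α : groupCohomology (Rep.ofAlgebraAutOnUnits k K) 2) :
    linvAt q k τ'' ((inflOf k K K').map α) = linvAt q k (τ''.comp (algebraMap K K')) α := by
  set τ₁ : K →+* PadicAlgCl q := τ''.comp (algebraMap K K') with hτ₁
  have hB : locBase q k τ'' = locBase q k τ₁ := locBase_comp_algebraMap q k K K' τ''
  have hle : locBase q k τ'' ≤ locField q τ₁ := hB ▸ locBase_le q k τ₁
  let M : IntermediateField (locBase q k τ'') (PadicAlgCl q) := IntermediateField.extendScalars hle
  have hM : ∀ z, z ∈ M ↔ z ∈ locField q τ₁ := fun z => Iff.rfl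
  obtain ⟨hN, ψ, e, u, he, hψ, hu⟩ := exists_pres q k τ₁ (locBase q k τ'') hB M hM
  have hML : M ≤ locExt q k τ'' := locField_comp_le q K K' τ''
  haveI : FiniteDimensional (locBase q k τ'') M :=
    finiteDimensional_of_mem_iff q _ M (locField q τ₁) hM
  haveI : IsGalois (locBase q k τ'') M := isGalois_of_normal q _ M
  haveI : FiniteDimensional (locBase q k τ'') (locExt q k τ'') :=
    finiteDimensional_of_mem_iff q _ _ (locField q τ'') (fun _ => Iff.rfl)
  haveI : IsGalois (locBase q k τ'') (locExt q k τ'') := isGalois_of_normal q _ _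
  have key : locH2At q k τ'' ((inflOf k K K').map α)
      = (H66.inflH2 hML).hom ((groupCohomology.map ψ u 2).hom α) := by
    have hfg : (AlgEquiv.restrictNormalHom (F := k) (K₁ := K') K).comp (locGalToGlobal q k τ'')
        = ψ.comp (H66.resHom hML) := by
      refine MonoidHom.ext fun β => AlgEquiv.ext fun x => e.injective (Subtype.ext ?_)
      have h1 : ((e (ψ (H66.resHom hML β) x) : M) : PadicAlgCl q)
          = ((β (locExtEmb q k τ'' (algebraMap K K' x)) : locExt q k τ'') : PadicAlgCl q) := by
        rw [← hψ, H66.resHom_apply]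
        have h2 : IntermediateField.inclusion hML (e x) = locExtEmb q k τ'' (algebraMap K K' x) :=
          Subtype.ext (he x)
        rw [h2]
      rw [MonoidHom.comp_apply, MonoidHom.comp_apply, h1, locGalToGlobal_spec, he]
      show τ'' (algebraMap K K' ((locGalToGlobal q k τ'' β).restrictNormal K x)) = _
      rw [AlgEquiv.restrictNormal_commutes]
      rfl
    have hφψ : ((Rep.resFunctor (locGalToGlobal q k τ'')).map (unitsInflHom k K K') ≫
          globalToLocUnits q k τ'').hom.toLinearMap
        = ((Rep.resFunctor (H66.resHom hML)).map u ≫ H66.inflRep hML).hom.toLinearMap := by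
      refine LinearMap.ext fun x => ?_
      refine congrArg Additive.ofMul (Units.ext (Subtype.ext ?_))
      exact (hu x).symm
    have e1 : groupCohomology.map (AlgEquiv.restrictNormalHom (F := k) (K₁ := K') K)
          (unitsInflHom k K K') 2 ≫
          groupCohomology.map (locGalToGlobal q k τ'') (globalToLocUnits q k τ'') 2
        = groupCohomology.map ψ u 2 ≫ H66.inflH2 hML := by
      unfold H66.inflH2
      rw [← groupCohomology.map_comp, ← groupCohomology.map_comp]
      exact groupCohomology.map_congr hfg hφψ 2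
    exact congrArg (fun f => f.hom α) e1
  show H66.inv q (locExt q k τ'') (locH2At q k τ'' ((inflOf k K K').map α)) = _
  rw [key, hInfl (locBase q k τ'') M (locExt q k τ'') hML,
    linvAt_eq_of_pres q k τ₁ (locBase q k τ'') hB M hM ψ e u he hψ hu]

end Infl

attribute [local instance] factOfPrimes

section Compat

variable (k K K' : Type) [Field k] [Field K] [Field K'] [Algebra k K] [Algebra k K']
  [Algebra K K'] [IsScalarTower k K K'] [Normal k K] [Normal k K']
  [NumberField k] [NumberField K] [NumberField K']

/-- **(INFL-COMPAT)**: inflation `K / k → K' / k` preserves the local invariants. -/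
theorem inflOf_compat (hInfl : ∀ (q : ℕ) [Fact q.Prime], H66.LeafInvInfl q)
    (hIndep : ∀ (q : ℕ) [Fact q.Prime] (τ' τ'' : K →+* PadicAlgCl q),
      (placeSetoid q k).r (τ'.comp (algebraMap k K)) (τ''.comp (algebraMap k K)) →
        linvAt q k τ' = linvAt q k τ'') : (inflOf k K K').Compat := by
  intro (v : FinPlace k) (α : groupCohomology (Rep.ofAlgebraAutOnUnits k K) 2)
  show linvAt (v.1 : ℕ) k (v.ext K') ((inflOf k K K').map α) = linvAt (v.1 : ℕ) k (v.ext K) α
  rw [linvAt_infl (v.1 : ℕ) k K K' (hInfl (v.1 : ℕ)) (v.ext K') α]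
  refine congrArg (fun f => f α) (hIndep (v.1 : ℕ) _ _ ?_)
  have hK' : (v.ext K').comp (algebraMap k K') = v.emb := FinPlace.ext_comp K' v
  have hK : (v.ext K).comp (algebraMap k K) = v.emb := FinPlace.ext_comp K v
  have h1 : ((v.ext K').comp (algebraMap K K')).comp (algebraMap k K)
      = (v.ext K).comp (algebraMap k K) := by
    rw [RingHom.comp_assoc, ← IsScalarTower.algebraMap_eq, hK', hK]
  rw [h1]

end Compat


end Fermat.Agent.S55.H83
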