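/-
S55 (Program C), Mathlib-only leaf (helper83): abelian groups that surject onto a free group of
finite rank split, and the index of the `p`-th powers in `T × ℤ^ι`.
-/
import Mathlib

set_option autoImplicit false

namespace Fermat.Agent.S55.H83

/-- A surjection of abelian groups onto a free `ℤ`-module splits: `A ≃+ ker φ × F`. -/
theorem nonempty_addEquiv_ker_prod {A F : Type*} [AddCommGroup A] [AddCommGroup F]
    [Module.Free ℤ F] (φ : A →+ F) (hφ : Function.Surjective φ) :
    Nonempty (A ≃+ φ.ker × F) := by
  obtain ⟨s, hs⟩ := φ.toIntLinearMap.exists_rightInverse_of_surjective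
    (LinearMap.range_eq_top.2 hφ)
  have hs' : ∀ x, φ (s x) = x := fun x => LinearMap.congr_fun hs x
  refine ⟨{
    toFun := fun a => (⟨a - s (φ a), by
      rw [AddMonoidHom.mem_ker, map_sub, hs', sub_self]⟩, φ a)
    invFun := fun x => (x.1 : A) + s x.2
    left_inv := fun a => by simp
    right_inv := fun x => by
      obtain ⟨⟨k, hk⟩, x⟩ := x
      rw [AddMonoidHom.mem_ker] at hk
      ext
      · simp [hk, hs']
      · simp [hk, hs']
    map_add' := fun a b => by
      ext
      · simp only [map_add, Prod.mk_add_mk, AddSubgroup.coe_add]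
        abel
      · simp }⟩

/-- Multiplicative version: `G ≃* ker f × F` for a surjection onto a group whose additive
version is a free `ℤ`-module. -/
theorem nonempty_mulEquiv_ker_prod {G F : Type*} [CommGroup G] [AddCommGroup F]
    [Module.Free ℤ F] (f : G →* Multiplicative F) (hf : Function.Surjective f) :
    Nonempty (G ≃* f.ker × Multiplicative F) := by
  let φ : Additive G →+ F := MonoidHom.toAdditiveLeft f
  have hφ : Function.Surjective φ := fun x => by
    obtain ⟨g, hg⟩ := hf (Multiplicative.ofAdd x)
    refine ⟨Additive.ofMul g, ?_⟩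
    change Multiplicative.toAdd (f g) = x
    rw [hg]
    rfl
  obtain ⟨s, hs⟩ := φ.toIntLinearMap.exists_rightInverse_of_surjective
    (LinearMap.range_eq_top.2 hφ)
  have hs' : ∀ x, f (Additive.toMul (s x)) = Multiplicative.ofAdd x := fun x => by
    have h := LinearMap.congr_fun hs x
    change Multiplicative.toAdd (f (Additive.toMul (s x))) = x at h
    exact congrArg Multiplicative.ofAdd h
  let σ : Multiplicative F →* G := AddMonoidHom.toMultiplicativeLeft s.toAddMonoidHom
  have hσ : ∀ y, f (σ y) = y := fun y => hs' (Multiplicative.toAdd y)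
  refine ⟨{
    toFun := fun a => (⟨a * (σ (f a))⁻¹, by
      rw [MonoidHom.mem_ker, map_mul, map_inv, hσ, mul_inv_cancel]⟩, f a)
    invFun := fun x => (x.1 : G) * σ x.2
    left_inv := fun a => by simp
    right_inv := fun x => by
      obtain ⟨⟨k, hk⟩, x⟩ := x
      rw [MonoidHom.mem_ker] at hk
      ext
      · simp [hk, hσ]
      · simp [hk, hσ]
    map_mul' := fun a b => by
      ext
      · simp only [map_mul, Prod.mk_mul_mk, Subgroup.coe_mul, mul_inv_rev]
        simp only [mul_assoc, mul_comm, mul_left_comm]
      · simp }⟩

/-- The `p`-th powers in `Multiplicative (ι → ℤ)` have index `p ^ card ι`. -/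
theorem index_powMonoidHom_range_pi_int (ι : Type*) [Fintype ι] (p : ℕ) [NeZero p] :
    (powMonoidHom p : Multiplicative (ι → ℤ) →* Multiplicative (ι → ℤ)).range.index =
      p ^ Fintype.card ι := by
  classical
  -- reduction mod `p`
  let red : Multiplicative (ι → ℤ) →* Multiplicative (ι → ZMod p) :=
    AddMonoidHom.toMultiplicative
      (AddMonoidHom.compLeft (Int.castAddHom (ZMod p)) ι)
  have hred : Function.Surjective red := by
    intro y
    refine ⟨Multiplicative.ofAdd fun i => ((Multiplicative.toAdd y i).val : ℤ), ?_⟩
    apply Multiplicative.toAdd.injective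
    funext i
    change (((Multiplicative.toAdd y i).val : ℤ) : ZMod p) = Multiplicative.toAdd y i
    simp
  have hker : red.ker = (powMonoidHom p : Multiplicative (ι → ℤ) →* _).range := by
    ext x
    rw [MonoidHom.mem_ker, MonoidHom.mem_range]
    constructor
    · intro hx
      have hx' : ∀ i, ((Multiplicative.toAdd x i : ℤ) : ZMod p) = 0 := fun i =>
        congrFun (congrArg Multiplicative.toAdd hx) i
      have hdvd : ∀ i, (p : ℤ) ∣ Multiplicative.toAdd x i := fun i =>
        (ZMod.intCast_zmod_eq_zero_iff_dvd _ _).1 (hx' i)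
      choose c hc using hdvd
      refine ⟨Multiplicative.ofAdd c, ?_⟩
      apply Multiplicative.toAdd.injective
      funext i
      change p • c i = Multiplicative.toAdd x i
      rw [hc i, nsmul_eq_mul]
    · rintro ⟨y, rfl⟩
      apply Multiplicative.toAdd.injective
      funext i
      change ((p • Multiplicative.toAdd y i : ℤ) : ZMod p) = 0
      simp
  rw [← hker, Subgroup.index_ker, MonoidHom.range_eq_top.2 hred, Subgroup.card_top]
  change Nat.card (ι → ZMod p) = _
  rw [Nat.card_eq_fintype_card, Fintype.card_fun, ZMod.card]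

/-- The index of the `p`-th powers is invariant under isomorphisms. -/
theorem index_powMonoidHom_range_congr {G H : Type*} [CommGroup G] [CommGroup H] (e : G ≃* H)
    (p : ℕ) :
    (powMonoidHom p : G →* G).range.index = (powMonoidHom p : H →* H).range.index := by
  have h : (powMonoidHom p : G →* G).range =
      (powMonoidHom p : H →* H).range.comap e.toMonoidHom := by
    ext x
    simp only [MonoidHom.mem_range, powMonoidHom_apply, Subgroup.mem_comap,
      MulEquiv.coe_toMonoidHom]
    constructor
    · rintro ⟨y, rfl⟩
      exact ⟨e y, (map_pow e y p).symm⟩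
    · rintro ⟨y, hy⟩
      refine ⟨e.symm y, e.injective ?_⟩
      rw [map_pow, MulEquiv.apply_symm_apply, hy]
  rw [h, Subgroup.index_comap_of_surjective _ e.surjective]

/-- The `p`-th powers of a product. -/
theorem index_powMonoidHom_range_prod (G H : Type*) [CommGroup G] [CommGroup H] (p : ℕ) :
    (powMonoidHom p : G × H →* G × H).range.index =
      (powMonoidHom p : G →* G).range.index * (powMonoidHom p : H →* H).range.index := by
  have h : (powMonoidHom p : G × H →* G × H).range =
      (powMonoidHom p : G →* G).range.prod (powMonoidHom p : H →* H).range := by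
    ext x
    simp only [MonoidHom.mem_range, powMonoidHom_apply, Subgroup.mem_prod]
    constructor
    · rintro ⟨y, rfl⟩
      exact ⟨⟨y.1, rfl⟩, ⟨y.2, rfl⟩⟩
    · rintro ⟨⟨a, ha⟩, ⟨b, hb⟩⟩
      exact ⟨(a, b), Prod.ext ha hb⟩
  rw [h, Subgroup.index_prod]

/-- **Counting lemma.**  If `G ≃* T × ℤ^ι`, the index of the `p`-th powers of `G` is the index
of the `p`-th powers of `T` times `p ^ card ι`. -/
theorem index_powMonoidHom_range_of_mulEquiv {G T : Type*} [CommGroup G] [CommGroup T]
    {ι : Type*} [Fintype ι] (e : G ≃* T × Multiplicative (ι → ℤ)) (p : ℕ) [NeZero p] :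
    (powMonoidHom p : G →* G).range.index =
      (powMonoidHom p : T →* T).range.index * p ^ Fintype.card ι := by
  rw [index_powMonoidHom_range_congr e, index_powMonoidHom_range_prod,
    index_powMonoidHom_range_pi_int]

end Fermat.Agent.S55.H83
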