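/-
S55 (Program C), Mathlib-only leaf (helper83): the `S`-unit theorem for Dedekind domains with
finite class group, on Mathlib's `Set.unit` (`RingTheory/DedekindDomain/SInteger`).

For a Dedekind domain `R` with fraction field `K` and finite class group and a finite set `S` of
height one primes:
* `valAdd K S : Additive (S.unit K) →+ (S → ℤ)`, the valuations at the primes of `S`;
* `mem_ker_valAdd_iff`: its kernel is the image of `Rˣ`;
* `exists_sUnit_valuation`: for every prime `v` there is `π ∈ Kˣ` with valuation `-h` at `v`
  (`h` the class number) and valuation `0` at all other primes;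
* `nonempty_sUnit_mulEquiv`: `S.unit K ≃* Rˣ × ℤ^S`.
-/
import Mathlib
import Fermat.Agent.S55.H83.SplitFree

set_option autoImplicit false

open IsDedekindDomain HeightOneSpectrum

namespace Fermat.Agent.S55.H83

noncomputable section

variable {R : Type*} [CommRing R] [IsDedekindDomain R] (K : Type*) [Field K] [Algebra R K]
  [IsFractionRing R K]

/-- The additive valuation of a nonzero element of `K` at a height one prime. -/
def ordv (v : HeightOneSpectrum R) (x : Kˣ) : ℤ := Multiplicative.toAdd (v.valuationOfNeZero x)

variable {K}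

theorem ordv_mul (v : HeightOneSpectrum R) (x y : Kˣ) : ordv K v (x * y) = ordv K v x + ordv K v y := by
  simp [ordv, map_mul]

theorem ordv_one (v : HeightOneSpectrum R) : ordv K v 1 = 0 := by
  simp [ordv]

theorem ordv_eq_zero_iff (v : HeightOneSpectrum R) (x : Kˣ) :
    ordv K v x = 0 ↔ v.valuation K (x : K) = 1 := by
  rw [← valuationOfNeZero_eq, ordv]
  constructor
  · intro h
    have : v.valuationOfNeZero x = 1 := Multiplicative.toAdd.injective h
    rw [this]
    rfl
  · intro h
    have : v.valuationOfNeZero x = 1 := by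
      exact_mod_cast h
    rw [this]
    rfl

/-- An element of `Kˣ` all of whose valuations vanish is a unit of `R`. -/
theorem exists_unit_of_forall_ordv_eq_zero (x : Kˣ) (h : ∀ v : HeightOneSpectrum R, ordv K v x = 0) :
    ∃ u : Rˣ, Units.map (algebraMap R K : R →* K) u = x := by
  have h1 : ∀ v : HeightOneSpectrum R, v.valuation K (x : K) = 1 := fun v =>
    (ordv_eq_zero_iff v x).1 (h v)
  have h2 : ∀ v : HeightOneSpectrum R, v.valuation K ((x⁻¹ : Kˣ) : K) = 1 := fun v => by
    rw [Units.val_inv_eq_inv_val, map_inv₀, h1 v, inv_one]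
  obtain ⟨r, hr⟩ := mem_integers_of_valuation_le_one K (x : K) (fun v => (h1 v).le)
  obtain ⟨r', hr'⟩ := mem_integers_of_valuation_le_one K ((x⁻¹ : Kˣ) : K) (fun v => (h2 v).le)
  have hinj := IsFractionRing.injective R K
  have e1 : r * r' = 1 := hinj (by rw [map_mul, hr, hr', map_one]; simp)
  have e2 : r' * r = 1 := by rw [mul_comm]; exact e1
  exact ⟨⟨r, r', e1, e2⟩, Units.ext hr⟩

theorem ordv_unit (v : HeightOneSpectrum R) (u : Rˣ) :
    ordv K v (Units.map (algebraMap R K : R →* K) u) = 0 := by
  rw [ordv, valuation_of_unit_eq]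
  rfl

/-! ### Elements with prescribed valuation at one prime -/

/-- For every height one prime `v` of a Dedekind domain with finite class group, there is an
element whose valuation is `-h` at `v` (`h` the class number) and `0` at all other primes. -/
theorem exists_ordv_eq [Finite (ClassGroup R)] (v : HeightOneSpectrum R) :
    ∃ π : Kˣ, ordv K v π = -(Nat.card (ClassGroup R) : ℤ) ∧
      ∀ w : HeightOneSpectrum R, w ≠ v → ordv K w π = 0 := by
  classical
  set h := Nat.card (ClassGroup R) with hh
  have hv0 : v.asIdeal ∈ nonZeroDivisors (Ideal R) := mem_nonZeroDivisors_of_ne_zero v.ne_bot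
  have hpow0 : v.asIdeal ^ h ∈ nonZeroDivisors (Ideal R) := pow_mem hv0 h
  have hprinc : (v.asIdeal ^ h).IsPrincipal := by
    rw [← ClassGroup.mk0_eq_one_iff hpow0]
    have : (⟨v.asIdeal ^ h, hpow0⟩ : nonZeroDivisors (Ideal R)) = ⟨v.asIdeal, hv0⟩ ^ h := rfl
    rw [this, map_pow, hh]
    exact pow_card_eq_one'
  obtain ⟨r, hr⟩ := hprinc
  have hr' : v.asIdeal ^ h = Ideal.span {r} := hr
  have hr0 : r ≠ 0 := by
    rintro rfl
    rw [Set.singleton_zero, Ideal.span_zero] at hr'
    exact pow_ne_zero h v.ne_bot hr'
  have hrK : algebraMap R K r ≠ 0 := by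
    rw [Ne, map_eq_zero_iff _ (IsFractionRing.injective R K)]
    exact hr0
  have hcount : ∀ w : HeightOneSpectrum R, w.valuation K (algebraMap R K r) =
      WithZero.exp (-(((Associates.mk w.asIdeal).count
        (Associates.mk (v.asIdeal ^ h)).factors : ℕ) : ℤ)) := fun w => by
    rw [valuation_of_algebraMap, intValuation_if_neg w hr0, hr']
  have hvne : Associates.mk v.asIdeal ≠ 0 := by
    rw [Ne, Associates.mk_eq_zero]
    exact v.ne_bot
  refine ⟨Units.mk0 _ hrK, ?_, ?_⟩
  · have h1 : (Associates.mk v.asIdeal).count (Associates.mk (v.asIdeal ^ h)).factors = h := by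
      rw [Associates.mk_pow, Associates.count_pow hvne v.associates_irreducible,
        Associates.count_self v.associates_irreducible, mul_one]
    have h2 := hcount v
    rw [h1, ← Units.val_mk0 hrK, ← valuationOfNeZero_eq] at h2
    have h3 : v.valuationOfNeZero (Units.mk0 _ hrK) = Multiplicative.ofAdd (-(h : ℤ)) :=
      WithZero.coe_injective h2
    rw [ordv, h3]
    rfl
  · intro w hw
    have hne : Associates.mk w.asIdeal ≠ Associates.mk v.asIdeal := by
      intro e
      rw [Associates.mk_eq_mk_iff_associated, associated_iff_eq] at e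
      exact hw (HeightOneSpectrum.ext e)
    have h1 : (Associates.mk w.asIdeal).count (Associates.mk (v.asIdeal ^ h)).factors = 0 := by
      rw [Associates.mk_pow, Associates.count_pow hvne w.associates_irreducible,
        Associates.count_eq_zero_of_ne w.associates_irreducible v.associates_irreducible hne,
        mul_zero]
    rw [ordv_eq_zero_iff, Units.val_mk0, hcount w, h1]
    simp

/-! ### The valuation map on `S`-units -/

variable (K) (S : Finset (HeightOneSpectrum R))

/-- The `S`-units of `K`, for a finite set `S` of primes. -/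
abbrev sUnit : Subgroup Kˣ := (S : Set (HeightOneSpectrum R)).unit K

/-- The valuations of an `S`-unit at the primes of `S`. -/
def valAdd : Additive (sUnit K S) →+ (S → ℤ) where
  toFun x v := ordv K (v : HeightOneSpectrum R) ((Additive.toMul x : sUnit K S) : Kˣ)
  map_zero' := by
    funext v
    exact ordv_one _
  map_add' x y := by
    funext v
    exact ordv_mul _ _ _

variable {K S}

theorem valAdd_apply (x : sUnit K S) (v : S) :
    valAdd K S (Additive.ofMul x) v = ordv K (v : HeightOneSpectrum R) (x : Kˣ) := rfl

theorem ordv_sUnit_of_notMem (x : sUnit K S) {v : HeightOneSpectrum R} (hv : v ∉ S) :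
    ordv K v (x : Kˣ) = 0 := by
  rw [ordv_eq_zero_iff]
  exact x.2 v (by simpa using hv)

variable (K S)

/-- The units of `R` as `S`-units. -/
def unitsToSUnit : Rˣ →* sUnit K S where
  toFun u := ⟨Units.map (algebraMap R K : R →* K) u, fun v _ => by
    have := ordv_unit (K := K) v u
    rwa [ordv_eq_zero_iff] at this⟩
  map_one' := by
    ext
    simp
  map_mul' a b := by
    ext
    simp

theorem unitsToSUnit_injective : Function.Injective (unitsToSUnit K S) := by
  intro a b hab
  have h1 := congrArg (fun x : sUnit K S => ((x : Kˣ) : K)) hab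
  exact Units.ext (IsFractionRing.injective R K h1)

variable {K S}

/-- The kernel of the valuation map is the image of the units of `R`. -/
theorem valAdd_eq_zero_iff (x : sUnit K S) :
    valAdd K S (Additive.ofMul x) = 0 ↔ x ∈ (unitsToSUnit K S).range := by
  constructor
  · intro hx
    have hall : ∀ v : HeightOneSpectrum R, ordv K v (x : Kˣ) = 0 := fun v => by
      by_cases hv : v ∈ S
      · exact congrFun hx ⟨v, hv⟩
      · exact ordv_sUnit_of_notMem x hv
    obtain ⟨u, hu⟩ := exists_unit_of_forall_ordv_eq_zero (x : Kˣ) hall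
    exact ⟨u, Subtype.ext hu⟩
  · rintro ⟨u, rfl⟩
    funext v
    exact ordv_unit _ u

/-! ### The structure of the `S`-units -/

variable (K S)

/-- The range of the valuation map, as a `ℤ`-submodule of `S → ℤ`. -/
def valRange : Submodule ℤ (S → ℤ) := LinearMap.range (valAdd K S).toIntLinearMap

theorem card_smul_mem_valRange [Finite (ClassGroup R)] (x : S → ℤ) :
    (Nat.card (ClassGroup R) : ℤ) • x ∈ valRange K S := by
  classical
  have hsingle : ∀ v : S, (Pi.single v (-(Nat.card (ClassGroup R) : ℤ)) : S → ℤ) ∈
      valRange K S := by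
    intro v
    obtain ⟨π, h1, h2⟩ := exists_ordv_eq (K := K) (v : HeightOneSpectrum R)
    have hπ : π ∈ sUnit K S := by
      intro w hw
      have hne : w ≠ (v : HeightOneSpectrum R) := fun e => hw (by simp [e])
      have := h2 w hne
      rwa [ordv_eq_zero_iff] at this
    refine ⟨Additive.ofMul ⟨π, hπ⟩, ?_⟩
    funext w
    change ordv K (w : HeightOneSpectrum R) π = _
    by_cases hw : w = v
    · subst hw
      rw [h1, Pi.single_eq_same]
    · rw [Pi.single_eq_of_ne hw]
      exact h2 w (fun e => hw (Subtype.ext e))
  have hx : (Nat.card (ClassGroup R) : ℤ) • x =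
      ∑ v : S, (-(x v)) • (Pi.single v (-(Nat.card (ClassGroup R) : ℤ)) : S → ℤ) := by
    funext w
    simp only [Pi.smul_apply, smul_eq_mul, Finset.sum_apply, Pi.single_apply, mul_ite, mul_zero,
      Finset.sum_ite_eq, Finset.mem_univ, if_true]
    ring
  rw [hx]
  exact Submodule.sum_mem _ fun v _ => Submodule.smul_mem _ _ (hsingle v)

theorem finrank_valRange [Finite (ClassGroup R)] :
    Module.finrank ℤ (valRange K S) = S.card := by
  have hle : Module.finrank ℤ (valRange K S) ≤ Module.finrank ℤ (S → ℤ) :=
    Submodule.finrank_le _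
  have hpos : (Nat.card (ClassGroup R) : ℤ) ≠ 0 := by
    exact_mod_cast (Nat.card_pos (α := ClassGroup R)).ne'
  let g : (S → ℤ) →ₗ[ℤ] valRange K S :=
    { toFun := fun x => ⟨(Nat.card (ClassGroup R) : ℤ) • x, card_smul_mem_valRange K S x⟩
      map_add' := fun x y => Subtype.ext (smul_add _ x y)
      map_smul' := fun c x => Subtype.ext (smul_comm _ c x) }
  have hg : Function.Injective g := by
    intro x y hxy
    have h1 : (Nat.card (ClassGroup R) : ℤ) • x = (Nat.card (ClassGroup R) : ℤ) • y :=
      congrArg Subtype.val hxy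
    funext v
    have h2 := congrFun h1 v
    simp only [Pi.smul_apply, smul_eq_mul] at h2
    exact mul_left_cancel₀ hpos h2
  have hge := LinearMap.finrank_le_finrank_of_injective hg
  have hcard : Module.finrank ℤ (S → ℤ) = S.card := by
    rw [Module.finrank_pi]
    simp
  omega

/-- **The `S`-unit theorem (structure).**  For a Dedekind domain with finite class group and a
finite set `S` of primes, the group of `S`-units is isomorphic to `Rˣ × ℤ^S`. -/
theorem nonempty_sUnit_mulEquiv [Finite (ClassGroup R)] :
    Nonempty (sUnit K S ≃* Rˣ × Multiplicative (S → ℤ)) := by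
  -- the surjection onto the range
  let φ : Additive (sUnit K S) →+ valRange K S :=
    ((valAdd K S).toIntLinearMap.rangeRestrict).toAddMonoidHom
  let f : sUnit K S →* Multiplicative (valRange K S) := AddMonoidHom.toMultiplicativeRight φ
  have hf : Function.Surjective f := by
    intro y
    obtain ⟨x, hx⟩ := (valAdd K S).toIntLinearMap.surjective_rangeRestrict
      (Multiplicative.toAdd y)
    exact ⟨Additive.toMul x, congrArg Multiplicative.ofAdd hx⟩
  obtain ⟨e₁⟩ := nonempty_mulEquiv_ker_prod f hf
  -- the kernel is the image of the units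
  have hker : f.ker = (unitsToSUnit K S).range := by
    ext x
    rw [← valAdd_eq_zero_iff, MonoidHom.mem_ker]
    constructor
    · intro hx
      have : φ (Additive.ofMul x) = 0 := congrArg Multiplicative.toAdd hx
      exact congrArg Subtype.val this
    · intro hx
      have : φ (Additive.ofMul x) = 0 := Subtype.ext hx
      exact congrArg Multiplicative.ofAdd this
  let e₂ : f.ker ≃* Rˣ :=
    (MulEquiv.subgroupCongr hker).trans
      (MonoidHom.ofInjective (unitsToSUnit_injective K S)).symm
  -- the range is free of rank `|S|`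
  have hrank : Module.finrank ℤ (valRange K S) = Module.finrank ℤ (S → ℤ) := by
    rw [finrank_valRange, Module.finrank_pi]
    simp
  let e₃ : valRange K S ≃ₗ[ℤ] (S → ℤ) := LinearEquiv.ofFinrankEq _ _ hrank
  let e₄ : Multiplicative (valRange K S) ≃* Multiplicative (S → ℤ) :=
    AddEquiv.toMultiplicative e₃.toAddEquiv
  exact ⟨e₁.trans (MulEquiv.prodCongr e₂ e₄)⟩

end

end Fermat.Agent.S55.H83
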