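/-
S55 (Program C), package C7, leaf (CN) (helper83), model-independent form: finiteness of the class
group gives `J = Kˣ · J_S`.

For a Dedekind domain `R` with fraction field `K` and finite class group there is a finite set
`S₀` of primes such that every finitely supported family of exponents `n` is realised outside
`S₀` by an element of `Kˣ`: `ordv K v c = n v` for all `v ∉ S₀`.
-/
import Mathlib
import Fermat.Agent.S55.H83.SUnit

set_option autoImplicit false

open IsDedekindDomain HeightOneSpectrum FractionalIdeal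

open scoped nonZeroDivisors

namespace Fermat.Agent.S55.H83

noncomputable section

variable {R : Type*} [CommRing R] [IsDedekindDomain R] {K : Type*} [Field K] [Algebra R K]
  [IsFractionRing R K]

theorem ordv_inv (v : HeightOneSpectrum R) (x : Kˣ) : ordv K v x⁻¹ = -ordv K v x := by
  have h := ordv_mul v x x⁻¹
  rw [mul_inv_cancel, ordv_one] at h
  omega

theorem ordv_eq_of_valuation_eq (v : HeightOneSpectrum R) (x : Kˣ) (m : ℤ)
    (h : v.valuation K (x : K) = WithZero.exp m) : ordv K v x = m := by
  rw [← valuationOfNeZero_eq] at h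
  have h3 : v.valuationOfNeZero x = Multiplicative.ofAdd m := WithZero.coe_injective h
  rw [ordv, h3]
  rfl

/-- The multiplicity of `v` in the principal fractional ideal `(c)` is `- ordv K v c`
(`ordv` is the additive form of Mathlib's multiplicative valuation, so it is *minus* the usual
order). -/
theorem count_spanSingleton_eq_neg_ordv (v : HeightOneSpectrum R) (c : Kˣ) :
    count K v (spanSingleton R⁰ (c : K)) = -ordv K v c := by
  classical
  obtain ⟨r, s, hs, hrs⟩ := IsFractionRing.div_surjective R (c : K)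
  have hs0 : s ≠ 0 := nonZeroDivisors.ne_zero hs
  have hr0 : r ≠ 0 := by
    rintro rfl
    rw [map_zero, zero_div] at hrs
    exact c.ne_zero hrs.symm
  have hsK : algebraMap R K s ≠ 0 := by
    rw [Ne, map_eq_zero_iff _ (IsFractionRing.injective R K)]
    exact hs0
  have hI : spanSingleton R⁰ (c : K) ≠ 0 := by
    rw [Ne, spanSingleton_eq_zero_iff]
    exact c.ne_zero
  have h_aJ : spanSingleton R⁰ (c : K) = spanSingleton R⁰ ((algebraMap R K) s)⁻¹ *
      ((Ideal.span {r} : Ideal R) : FractionalIdeal R⁰ K) := by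
    rw [coeIdeal_span_singleton, spanSingleton_mul_spanSingleton, ← hrs]
    congr 1
    field_simp
  rw [count_well_defined K v hI h_aJ]
  have hval : v.valuation K (c : K) = WithZero.exp
      (-((Associates.mk v.asIdeal).count (Associates.mk (Ideal.span {r})).factors : ℤ) +
        ((Associates.mk v.asIdeal).count (Associates.mk (Ideal.span {s})).factors : ℤ)) := by
    rw [← hrs, map_div₀, valuation_of_algebraMap, valuation_of_algebraMap,
      intValuation_if_neg v hr0, intValuation_if_neg v hs0, ← WithZero.exp_sub]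
    congr 1
    ring
  rw [ordv_eq_of_valuation_eq v c _ hval]
  ring

/-- **Finiteness of the class group, idelic form** (`J = Kˣ · J_S`).  For a Dedekind domain with
finite class group there is a finite set `S₀` of primes such that for every finitely supported
family of exponents `n` there is `c ∈ Kˣ` with `ordv K v c = n v` for all `v ∉ S₀`. -/
theorem exists_finset_forall_exists_ordv_eq [Finite (ClassGroup R)] :
    ∃ S₀ : Finset (HeightOneSpectrum R), ∀ n : HeightOneSpectrum R → ℤ,
      (Function.support n).Finite → ∃ c : Kˣ, ∀ v, v ∉ S₀ → ordv K v c = n v := by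
  classical
  choose rep hrep using (ClassGroup.mk0_surjective (R := R))
  have hne : ∀ C, ((rep C : (Ideal R)⁰) : Ideal R) ≠ 0 := fun C =>
    nonZeroDivisors.coe_ne_zero _
  have hfin : (⋃ C : ClassGroup R,
      {v : HeightOneSpectrum R | v.asIdeal ∣ ((rep C : (Ideal R)⁰) : Ideal R)}).Finite :=
    Set.finite_iUnion fun C => Ideal.finite_factors (hne C)
  refine ⟨hfin.toFinset, fun n hn => ?_⟩
  have h_exps : ∀ᶠ v : HeightOneSpectrum R in Filter.cofinite, n v = 0 := hn
  set 𝔞 : FractionalIdeal R⁰ K :=
    ∏ᶠ v : HeightOneSpectrum R, (v.asIdeal : FractionalIdeal R⁰ K) ^ n v with h𝔞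
  have h𝔞0 : 𝔞 ≠ 0 := finprod_ne_zero fun v => zpow_ne_zero _ (coeIdeal_ne_zero.mpr v.ne_bot)
  set I := rep (ClassGroup.mk K (Units.mk0 𝔞 h𝔞0))⁻¹ with hI
  have hI0 : ((I : (Ideal R)⁰) : Ideal R) ≠ 0 := hne _
  have hIK : ((I : Ideal R) : FractionalIdeal R⁰ K) ≠ 0 := coeIdeal_ne_zero.mpr hI0
  have hcls : ClassGroup.mk K (Units.mk0 𝔞 h𝔞0 * FractionalIdeal.mk0 K I) = 1 := by
    rw [map_mul, ClassGroup.mk_mk0, hrep, mul_inv_cancel]
  rw [ClassGroup.mk_eq_one_iff] at hcls
  obtain ⟨c, hc⟩ := (isPrincipal_iff _).1 hcls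
  have hprod : 𝔞 * ((I : Ideal R) : FractionalIdeal R⁰ K) = spanSingleton R⁰ c := by
    rw [← hc]
    simp
  have hc0 : c ≠ 0 := by
    rintro rfl
    rw [spanSingleton_zero] at hprod
    exact mul_ne_zero h𝔞0 hIK hprod
  refine ⟨(Units.mk0 c hc0)⁻¹, fun v hv => ?_⟩
  have hvI : ¬ v.asIdeal ∣ (I : Ideal R) := fun hdvd =>
    hv (hfin.mem_toFinset.2 (Set.mem_iUnion.2 ⟨_, hdvd⟩))
  have hcount0 : (Associates.mk v.asIdeal).count (Associates.mk (I : Ideal R)).factors = 0 := by
    by_contra h
    exact hvI ((Associates.count_ne_zero_iff_dvd hI0 v.irreducible).1 h)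
  have h1 := congrArg (count K v) hprod
  rw [count_mul K v h𝔞0 hIK, count_finprod K v n h_exps, count_coe K v hI0, hcount0] at h1
  have h2 := count_spanSingleton_eq_neg_ordv v (Units.mk0 c hc0)
  rw [Units.val_mk0] at h2
  rw [h2] at h1
  rw [ordv_inv]
  simp only [Nat.cast_zero, add_zero] at h1
  omega

end

end Fermat.Agent.S55.H83
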