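/-
S55 (Program C), package C5 (helper83): a field `K` is dense in its completion
`locField q τ = ℚ_q(τ K) ⊆ PadicAlgCl q` at an embedding `τ`; consequently every nonzero element
of the completion has the norm of an element of `Kˣ`.
-/
import Mathlib
import Fermat.Agent.S55.H88.SemiLocalDefs

set_option autoImplicit false

namespace Fermat.Agent.S55.H83

open Fermat.Agent.S55.H88

noncomputable section

variable (q : ℕ) [Fact q.Prime] {K : Type*} [Field K]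

/-- `τ K` is dense in `locField q τ`. -/
theorem loc_dense (τ : K →+* PadicAlgCl q) {y : PadicAlgCl q} (hy : y ∈ locField q τ) :
    ∀ ε : ℝ, 0 < ε → ∃ x : K, ‖y - τ x‖ < ε := by
  have hy' : y ∈ Algebra.adjoin ℚ_[q] (Set.range τ) := by
    have h1 : y ∈ (locField q τ).toSubalgebra := hy
    rwa [locField, IntermediateField.adjoin_toSubalgebra] at h1
  refine Algebra.adjoin_induction
    (p := fun y _ => ∀ ε : ℝ, 0 < ε → ∃ x : K, ‖y - τ x‖ < ε) ?_ ?_ ?_ ?_ hy'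
  · rintro _ ⟨x, rfl⟩ ε hε
    exact ⟨x, by rwa [sub_self, norm_zero]⟩
  · intro c ε hε
    obtain ⟨r, hr⟩ := Padic.rat_dense q c hε
    refine ⟨(r : K), ?_⟩
    have h1 : τ (r : K) = algebraMap ℚ_[q] (PadicAlgCl q) (r : ℚ_[q]) := by
      rw [map_ratCast, map_ratCast]
    rw [h1, ← map_sub, PadicAlgCl.norm_extends]
    exact hr
  · intro y₁ y₂ _ _ h₁ h₂ ε hε
    obtain ⟨x₁, hx₁⟩ := h₁ ε hε
    obtain ⟨x₂, hx₂⟩ := h₂ ε hε
    refine ⟨x₁ + x₂, ?_⟩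
    have h1 : y₁ + y₂ - τ (x₁ + x₂) = (y₁ - τ x₁) + (y₂ - τ x₂) := by
      rw [map_add]
      ring
    rw [h1]
    exact lt_of_le_of_lt (IsUltrametricDist.norm_add_le_max _ _) (max_lt hx₁ hx₂)
  · intro y₁ y₂ _ _ h₁ h₂ ε hε
    have hM₁ : 0 < ‖y₁‖ + 1 := by positivity
    have hM₂ : 0 < ‖y₂‖ + 1 := by positivity
    obtain ⟨x₂, hx₂⟩ := h₂ (min (ε / (‖y₁‖ + 1)) 1) (lt_min (div_pos hε hM₁) one_pos)
    obtain ⟨x₁, hx₁⟩ := h₁ (ε / (‖y₂‖ + 1)) (div_pos hε hM₂)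
    refine ⟨x₁ * x₂, ?_⟩
    have h1 : y₁ * y₂ - τ (x₁ * x₂) = y₁ * (y₂ - τ x₂) + (y₁ - τ x₁) * τ x₂ := by
      rw [map_mul]
      ring
    have hτx₂ : ‖τ x₂‖ ≤ ‖y₂‖ + 1 := by
      have h2 : τ x₂ = y₂ - (y₂ - τ x₂) := by ring
      rw [h2]
      refine (norm_sub_le _ _).trans ?_
      have h3 : ‖y₂ - τ x₂‖ ≤ 1 := (hx₂.trans_le (min_le_right _ _)).le
      linarith
    have hA : ‖y₁ * (y₂ - τ x₂)‖ < ε := by
      rw [norm_mul]
      have h3 : ‖y₂ - τ x₂‖ < ε / (‖y₁‖ + 1) := hx₂.trans_le (min_le_left _ _)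
      calc ‖y₁‖ * ‖y₂ - τ x₂‖ ≤ ‖y₁‖ * (ε / (‖y₁‖ + 1)) :=
            mul_le_mul_of_nonneg_left h3.le (norm_nonneg _)
        _ < (‖y₁‖ + 1) * (ε / (‖y₁‖ + 1)) :=
            mul_lt_mul_of_pos_right (by linarith) (div_pos hε hM₁)
        _ = ε := mul_div_cancel₀ _ hM₁.ne'
    have hB : ‖(y₁ - τ x₁) * τ x₂‖ < ε := by
      rw [norm_mul]
      calc ‖y₁ - τ x₁‖ * ‖τ x₂‖ ≤ ‖y₁ - τ x₁‖ * (‖y₂‖ + 1) :=
            mul_le_mul_of_nonneg_left hτx₂ (norm_nonneg _)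
        _ < ε / (‖y₂‖ + 1) * (‖y₂‖ + 1) := mul_lt_mul_of_pos_right hx₁ hM₂
        _ = ε := div_mul_cancel₀ _ hM₂.ne'
    rw [h1]
    exact lt_of_le_of_lt (IsUltrametricDist.norm_add_le_max _ _) (max_lt hA hB)

/-- Every nonzero element of the completion at `τ` has the norm of an element of `Kˣ`. -/
theorem exists_units_norm_eq (τ : K →+* PadicAlgCl q) {y : PadicAlgCl q}
    (hy : y ∈ locField q τ) (hy0 : y ≠ 0) : ∃ a : Kˣ, ‖τ (a : K)‖ = ‖y‖ := by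
  obtain ⟨x, hx⟩ := loc_dense q τ hy ‖y‖ (norm_pos_iff.2 hy0)
  have h1 : ‖τ x‖ = ‖y‖ := by
    have h2 : τ x = (τ x - y) + y := by ring
    have h3 : ‖τ x - y‖ ≠ ‖y‖ := by
      rw [norm_sub_rev]
      exact hx.ne
    rw [h2, IsUltrametricDist.norm_add_eq_max_of_norm_ne_norm h3, norm_sub_rev]
    exact max_eq_right hx.le
  have hx0 : x ≠ 0 := by
    rintro rfl
    rw [map_zero, norm_zero] at h1
    exact hy0 (norm_eq_zero.1 h1.symm)
  exact ⟨Units.mk0 x hx0, h1⟩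

end

end Fermat.Agent.S55.H83
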