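/-
S55 (Program C), Mathlib-only leaf (helper83): the `S`-unit theorem for number fields, counting
form.  For a number field `K`, a finite set `S` of finite primes and a prime number `p` such that
`K` contains a primitive `p`-th root of unity, the `p`-th powers have index
`p ^ (#{infinite places} + #S)` in the group of `S`-units.
-/
import Mathlib
import Fermat.Agent.S55.H83.SUnit

set_option autoImplicit false

open IsDedekindDomain HeightOneSpectrum NumberField

namespace Fermat.Agent.S55.H83

/-- For a subgroup `H` of a commutative group, the `p`-th powers of elements of `H`, seen inside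
`H`, are the range of the `p`-th power map of `H`. -/
theorem map_powMonoidHom_subgroupOf {G : Type*} [CommGroup G] (H : Subgroup G) (p : ℕ) :
    (H.map (powMonoidHom p : G →* G)).subgroupOf H = (powMonoidHom p : H →* H).range := by
  ext x
  simp only [Subgroup.mem_subgroupOf, Subgroup.mem_map, powMonoidHom_apply, MonoidHom.mem_range]
  constructor
  · rintro ⟨y, hy, hyx⟩
    exact ⟨⟨y, hy⟩, Subtype.ext hyx⟩
  · rintro ⟨y, rfl⟩
    exact ⟨y, y.2, rfl⟩

/-- The relative index of the `p`-th powers of a subgroup `H` inside `H`. -/
theorem relIndex_map_powMonoidHom {G : Type*} [CommGroup G] (H : Subgroup G) (p : ℕ) :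
    (H.map (powMonoidHom p : G →* G)).relIndex H = (powMonoidHom p : H →* H).range.index := by
  rw [Subgroup.relIndex, map_powMonoidHom_subgroupOf]

section NumberField

variable (K : Type*) [Field K] [NumberField K]

/-- **Dirichlet's unit theorem (structure).** `(𝓞 K)ˣ ≃* torsion × ℤ^rank`. -/
theorem nonempty_units_mulEquiv :
    Nonempty ((𝓞 K)ˣ ≃* NumberField.Units.torsion K ×
      Multiplicative (Fin (NumberField.Units.rank K) → ℤ)) := by
  let g : NumberField.Units.torsion K × Multiplicative (Fin (NumberField.Units.rank K) → ℤ) →*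
      (𝓞 K)ˣ :=
    { toFun := fun x => (x.1 : (𝓞 K)ˣ) *
        ∏ i, NumberField.Units.fundSystem K i ^ (Multiplicative.toAdd x.2 i)
      map_one' := by simp
      map_mul' := fun x y => by
        simp only [Prod.fst_mul, Prod.snd_mul, Subgroup.coe_mul, toAdd_mul, Pi.add_apply,
          zpow_add, Finset.prod_mul_distrib]
        rw [mul_mul_mul_comm] }
  have hg : Function.Bijective g := by
    constructor
    · intro x y hxy
      obtain ⟨z, _, hz⟩ := NumberField.Units.exist_unique_eq_mul_prod K (g x)
      have hx := hz (x.1, Multiplicative.toAdd x.2) rfl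
      have hy := hz (y.1, Multiplicative.toAdd y.2) hxy
      have hxy' : (x.1, Multiplicative.toAdd x.2) = (y.1, Multiplicative.toAdd y.2) :=
        hx.trans hy.symm
      exact Prod.ext (congrArg Prod.fst hxy')
        (Multiplicative.toAdd.injective (congrArg Prod.snd hxy'))
    · intro u
      obtain ⟨z, hz, _⟩ := NumberField.Units.exist_unique_eq_mul_prod K u
      exact ⟨(z.1, Multiplicative.ofAdd z.2), hz.symm⟩
  exact ⟨(MulEquiv.ofBijective g hg).symm⟩

/-- The index of the `p`-th powers in the unit group of a number field. -/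
theorem index_powMonoidHom_range_units (p : ℕ) [NeZero p] :
    (powMonoidHom p : (𝓞 K)ˣ →* (𝓞 K)ˣ).range.index =
      (NumberField.Units.torsionOrder K).gcd p * p ^ NumberField.Units.rank K := by
  obtain ⟨e⟩ := nonempty_units_mulEquiv K
  rw [index_powMonoidHom_range_of_mulEquiv e p, IsCyclic.index_powMonoidHom_range,
    Fintype.card_fin]
  rfl

/-- **`S`-unit theorem, counting form (general).**  The index of the `p`-th powers in the group
of `S`-units is `gcd(w_K, p) * p ^ (rank + #S)`. -/
theorem index_powMonoidHom_range_sUnit_gcd (S : Finset (HeightOneSpectrum (𝓞 K))) (p : ℕ)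
    [NeZero p] :
    (powMonoidHom p : sUnit K S →* sUnit K S).range.index =
      (NumberField.Units.torsionOrder K).gcd p * p ^ (NumberField.Units.rank K + S.card) := by
  obtain ⟨e⟩ := nonempty_sUnit_mulEquiv (R := 𝓞 K) K S
  rw [index_powMonoidHom_range_of_mulEquiv e p, index_powMonoidHom_range_units,
    Fintype.card_coe, pow_add, mul_assoc]

omit [NumberField K] in
/-- If `K` contains a primitive `p`-th root of unity, `p` divides the number of roots of unity
of `K`. -/
theorem dvd_torsionOrder_of_isPrimitiveRoot {p : ℕ} [NeZero p] {ζ : K}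
    (hζ : IsPrimitiveRoot ζ p) : p ∣ NumberField.Units.torsionOrder K := by
  have hp : p ≠ 0 := NeZero.ne p
  have h1 : IsPrimitiveRoot hζ.toInteger p := hζ.toInteger_isPrimitiveRoot
  have h2 : IsPrimitiveRoot (h1.isUnit hp).unit p := h1.isUnit_unit hp
  set u : (𝓞 K)ˣ := (h1.isUnit hp).unit with hu
  have hmem : u ∈ NumberField.Units.torsion K := by
    rw [NumberField.Units.torsion, CommGroup.mem_torsion]
    exact isOfFinOrder_iff_pow_eq_one.2 ⟨p, Nat.pos_of_ne_zero hp, h2.pow_eq_one⟩
  have h3 : orderOf (⟨u, hmem⟩ : NumberField.Units.torsion K) = p := by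
    rw [Subgroup.orderOf_mk]
    exact h2.eq_orderOf.symm
  rw [NumberField.Units.torsionOrder, ← h3]
  exact orderOf_dvd_natCard _

/-- **`S`-unit theorem, counting form.**  If the number field `K` contains a primitive `p`-th
root of unity, the `p`-th powers have index `p ^ (#{infinite places} + #S)` in the group of
`S`-units. -/
theorem index_powMonoidHom_range_sUnit (S : Finset (HeightOneSpectrum (𝓞 K))) {p : ℕ}
    [NeZero p] {ζ : K} (hζ : IsPrimitiveRoot ζ p) :
    (powMonoidHom p : sUnit K S →* sUnit K S).range.index =
      p ^ (Fintype.card (InfinitePlace K) + S.card) := by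
  rw [index_powMonoidHom_range_sUnit_gcd,
    Nat.gcd_eq_right (dvd_torsionOrder_of_isPrimitiveRoot K hζ), ← pow_succ']
  congr 1
  have hpos : 0 < Fintype.card (InfinitePlace K) := Fintype.card_pos
  rw [NumberField.Units.rank]
  omega

/-- The same statement as a relative index inside `Kˣ` (the shape consumed by the second
inequality). -/
theorem relIndex_map_powMonoidHom_sUnit (S : Finset (HeightOneSpectrum (𝓞 K))) {p : ℕ}
    [NeZero p] {ζ : K} (hζ : IsPrimitiveRoot ζ p) :
    ((sUnit K S).map (powMonoidHom p : Kˣ →* Kˣ)).relIndex (sUnit K S) =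
      p ^ (Fintype.card (InfinitePlace K) + S.card) := by
  rw [relIndex_map_powMonoidHom, index_powMonoidHom_range_sUnit K S hζ]

/-- Without roots of unity of order `p`: the index is `p ^ (#{infinite places} - 1 + #S)`. -/
theorem index_powMonoidHom_range_sUnit_of_coprime (S : Finset (HeightOneSpectrum (𝓞 K)))
    {p : ℕ} [NeZero p] (hp : (NumberField.Units.torsionOrder K).Coprime p) :
    (powMonoidHom p : sUnit K S →* sUnit K S).range.index =
      p ^ (NumberField.Units.rank K + S.card) := by
  rw [index_powMonoidHom_range_sUnit_gcd, Nat.Coprime.gcd_eq_one hp, one_mul]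

end NumberField

end Fermat.Agent.S55.H83
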