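/-
S55 (Program C), package C5 (helper83): leaves B2 (FIN), B3 (CN), B4 (SU) of
`Fermat/Agent/S55/H88/SemiLocalSpec.lean` in the embedding model, verbatim, from the dictionary
(B1) and the Mathlib-level `S`-unit theorem and class number statement.
-/
import Mathlib
import Fermat.Agent.S55.H88.SemiLocalSpec
import Fermat.Agent.S55.H83.Dict
import Fermat.Agent.S55.H83.LocDense
import Fermat.Agent.S55.H83.SUnitCard
import Fermat.Agent.S55.H83.ClassNumber

set_option autoImplicit false

open NumberField IsDedekindDomain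

namespace Fermat.Agent.S55.H83

open Fermat.Agent.S55.H88

noncomputable section

attribute [local instance] Fermat.Agent.S55.H88.factOfPrimes

/-- A nonzero element of the fraction field of a Dedekind domain is a unit at almost all
primes. -/
theorem finite_setOf_valuation_ne_one {R : Type*} [CommRing R] [IsDedekindDomain R] {K : Type*}
    [Field K] [Algebra R K] [IsFractionRing R K] (x : Kˣ) :
    {v : HeightOneSpectrum R | v.valuation K (x : K) ≠ 1}.Finite := by
  have h := FractionalIdeal.finite_factors
    (FractionalIdeal.spanSingleton (nonZeroDivisors R) (x : K))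
  rw [Filter.eventually_cofinite] at h
  refine h.subset fun v hv => ?_
  intro h0
  rw [count_spanSingleton_eq_neg_ordv, neg_eq_zero, ordv_eq_zero_iff] at h0
  exact hv h0

variable {K : Type*} [Field K] [NumberField K]

omit [NumberField K] in
/-- Membership in the local unit group, in terms of the norm of the embedding. -/
theorem finLoc_mem_finU_iff_norm (v : FinPlace K) (x : Kˣ) :
    finLoc K v x ∈ finU K v ↔ ‖v.emb (x : K)‖ = 1 := Iff.rfl

/-- Membership in the local unit group, in terms of the valuation of the corresponding prime. -/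
theorem finLoc_mem_finU_iff (v : FinPlace K) (x : Kˣ) :
    finLoc K v x ∈ finU K v ↔ (dictEquiv K v).valuation K (x : K) = 1 := by
  rw [finLoc_mem_finU_iff_norm]
  exact norm_emb_eq_one_iff_dictEquiv v x.ne_zero

variable (K)

/-- **(B2 = FIN)**, verbatim. -/
theorem finiteNonunitStatement : FiniteNonunitStatement K := by
  intro x
  have h := finite_setOf_valuation_ne_one (R := 𝓞 K) x
  refine (h.preimage (dictEquiv K).injective.injOn).subset fun v hv => ?_
  intro h1
  exact hv ((finLoc_mem_finU_iff v x).2 h1)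

variable {K}

/-- The `S`-units of the embedding model are the `S`-units of Mathlib. -/
theorem GS_eq_sUnit (S : Finset (FinPlace K)) :
    H8.GS (finU K) (finLoc K) (S : Set (FinPlace K)) =
      sUnit K (S.map (dictEquiv K).toEmbedding) := by
  ext x
  rw [H8.mem_GS]
  constructor
  · intro h w hw
    have hw' : (dictEquiv K).symm w ∉ (S : Set (FinPlace K)) := by
      intro hmem
      apply hw
      rw [Finset.mem_coe, Finset.mem_map]
      exact ⟨(dictEquiv K).symm w, hmem, (dictEquiv K).apply_symm_apply w⟩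
    have h1 := (finLoc_mem_finU_iff _ x).1 (h _ hw')
    rwa [Equiv.apply_symm_apply] at h1
  · intro h v hv
    rw [finLoc_mem_finU_iff]
    refine h (dictEquiv K v) ?_
    intro hmem
    rw [Finset.mem_coe, Finset.mem_map] at hmem
    obtain ⟨v', hv', hvv'⟩ := hmem
    have : v' = v := (dictEquiv K).injective hvv'
    subst this
    exact hv hv'

variable (K)

/-- **(B4 = SU)**, verbatim. -/
theorem sUnitIndexStatement (p : ℕ) : SUnitIndexStatement K p := by
  rintro hp ⟨ζ, hζ⟩ S
  have hne : NeZero p := ⟨hp.ne_zero⟩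
  rw [GS_eq_sUnit, relIndex_map_powMonoidHom_sUnit K _ hζ, Nat.card_eq_fintype_card,
    Finset.card_map]

/-- **(B3 = CN)**, verbatim. -/
theorem classNumberStatement : ClassNumberStatement K := by
  classical
  obtain ⟨S₀, hS₀⟩ := exists_finset_forall_exists_ordv_eq (R := 𝓞 K) (K := K)
  refine ⟨S₀.map (dictEquiv K).symm.toEmbedding, fun S hTS x hx => ?_⟩
  rw [H8.mem_resProd] at hx
  -- global elements with the local norms of `x`
  have hex : ∀ v : FinPlace K, ∃ a : Kˣ, ‖v.emb (a : K)‖ = ‖(((x v : v.field)) : PadicAlgCl (v.1 : ℕ))‖ :=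
    fun v => exists_units_norm_eq (v.1 : ℕ) v.emb (x v : v.field).2
      (fun h0 => (x v).ne_zero (Subtype.ext h0))
  choose a ha using hex
  -- the exponents
  let n : HeightOneSpectrum (𝓞 K) → ℤ := fun w =>
    if x ((dictEquiv K).symm w) ∈ finU K ((dictEquiv K).symm w) then 0
    else ordv K w (a ((dictEquiv K).symm w))
  have hn : (Function.support n).Finite := by
    refine (hx.image (dictEquiv K)).subset fun w hw => ?_
    refine ⟨(dictEquiv K).symm w, ?_, (dictEquiv K).apply_symm_apply w⟩
    intro hmem
    apply hw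
    show (if x ((dictEquiv K).symm w) ∈ finU K ((dictEquiv K).symm w) then 0
      else ordv K w (a ((dictEquiv K).symm w))) = 0
    rw [if_pos hmem]
  obtain ⟨c, hc⟩ := hS₀ n hn
  -- `x / c` is a unit outside `S`
  have hJS : x * (H8.diag (finLoc K) c)⁻¹ ∈ H8.JS (finU K) (S : Set (FinPlace K)) := by
    rw [H8.mem_JS]
    intro v hv
    have hvS₀ : dictEquiv K v ∉ S₀ := by
      intro hmem
      apply hv
      apply hTS
      rw [Finset.mem_map]
      exact ⟨dictEquiv K v, hmem, (dictEquiv K).symm_apply_apply v⟩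
    have hcv := hc (dictEquiv K v) hvS₀
    have hnv : n (dictEquiv K v) = if x v ∈ finU K v then 0 else ordv K (dictEquiv K v) (a v) := by
      show (if x ((dictEquiv K).symm (dictEquiv K v)) ∈ finU K ((dictEquiv K).symm (dictEquiv K v))
        then 0 else ordv K (dictEquiv K v) (a ((dictEquiv K).symm (dictEquiv K v)))) = _
      rw [Equiv.symm_apply_apply]
    rw [hnv] at hcv
    -- the norm of `c` at `v` is the norm of `x v`
    have hnorm : ‖v.emb (c : K)‖ = ‖(((x v : v.field)) : PadicAlgCl (v.1 : ℕ))‖ := by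
      by_cases hxv : x v ∈ finU K v
      · rw [if_pos hxv, ordv_eq_zero_iff] at hcv
        rw [(norm_emb_eq_one_iff_dictEquiv v c.ne_zero).2 hcv]
        exact hxv.symm
      · rw [if_neg hxv] at hcv
        have h1 : ordv K (dictEquiv K v) (c * (a v)⁻¹) = 0 := by
          rw [ordv_mul, ordv_inv, hcv, add_neg_cancel]
        rw [ordv_eq_zero_iff] at h1
        have h2 := (norm_emb_eq_one_iff_dictEquiv v (c * (a v)⁻¹).ne_zero).2 h1
        rw [Units.val_mul, Units.val_inv_eq_inv_val, map_mul, map_inv₀, norm_mul, norm_inv] at h2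
        rw [← ha v]
        have hpos : 0 < ‖v.emb ((a v : Kˣ) : K)‖ :=
          norm_pos_iff.2 ((map_ne_zero _).2 (a v).ne_zero)
        field_simp at h2
        exact h2
    show ‖((((x * (H8.diag (finLoc K) c)⁻¹) v : finX K v) : v.field) : PadicAlgCl (v.1 : ℕ))‖ = 1
    have h3 : ((((x * (H8.diag (finLoc K) c)⁻¹) v : finX K v) : v.field) : PadicAlgCl (v.1 : ℕ)) =
        (((x v : v.field)) : PadicAlgCl (v.1 : ℕ)) * (v.emb (c : K))⁻¹ := by
      show (((x v * (finLoc K v c)⁻¹ : finX K v) : v.field) : PadicAlgCl (v.1 : ℕ)) = _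
      rw [Units.val_mul, Units.val_inv_eq_inv_val]
      rfl
    rw [h3, norm_mul, norm_inv, hnorm]
    exact mul_inv_cancel₀ (by
      rw [← hnorm]
      exact (norm_pos_iff.2 ((map_ne_zero _).2 c.ne_zero)).ne')
  rw [Subgroup.mem_sup]
  refine ⟨H8.diag (finLoc K) c, ⟨c, rfl⟩, x * (H8.diag (finLoc K) c)⁻¹, hJS, ?_⟩
  rw [mul_comm x, mul_inv_cancel_left]

end

end Fermat.Agent.S55.H83
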