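import Mathlib
import Fermat.Agent.S55.H88.TowerData
import Fermat.Agent.S55.H83.InflCompat

/-!
Program C (S55), C5 → C8 glue (helper83): `(H88.towerOf k E K).InfCompat` — inflation from the
layer `E / k` (in the quotient presentation `H²(Gal(K/k) ⧸ Gal(K/E), (Kˣ)^{Gal(K/E)})`) to the
layer `K / k` preserves the local invariants.  Reduction to `inflOf_compat` for `(k, E, K)` by
`groupCohomology.map_comp`.
-/

set_option autoImplicit false
set_option linter.style.haveILetI false
set_option linter.unusedSectionVars false

open CategoryTheory

noncomputable section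

namespace Fermat.Agent.S55.H83

open Fermat.Agent.S55.H88 Fermat.Agent.S55.H66

attribute [local instance] factOfPrimes

section Tower

variable (k E K : Type) [Field k] [Field E] [Field K] [Algebra k E] [Algebra E K] [Algebra k K]
  [IsScalarTower k E K] [Normal k E] [IsGalois k K] [FiniteDimensional k K]
  [NumberField k] [NumberField E] [NumberField K]

/-- Inflation in the quotient presentation is inflation of layers after `quotH2`. -/
theorem infH2_eq_inflOf_map_quotH2
    (γ : groupCohomology
      ((Rep.ofAlgebraAutOnUnits k K).quotientToInvariants (fixSubgroup k E K)) 2) :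
    H29.infH2 (Rep.ofAlgebraAutOnUnits k K) (fixSubgroup k E K) γ
      = (inflOf k E K).map (quotH2 k E K γ) := by
  have hfg : (quotGalEquiv k E K).symm.toMonoidHom.comp
        (AlgEquiv.restrictNormalHom (F := k) (K₁ := K) E)
      = QuotientGroup.mk' (fixSubgroup k E K) := by
    refine MonoidHom.ext fun σ => ?_
    show (quotGalEquiv k E K).symm (σ.restrictNormal E) = QuotientGroup.mk σ
    rw [MulEquiv.symm_apply_eq, quotGalEquiv_mk]
  have hφψ : ((Rep.resFunctor (AlgEquiv.restrictNormalHom (F := k) (K₁ := K) E)).map
          (invariantsToUnits k E K) ≫ unitsInflHom k E K).hom.toLinearMap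
        = (Rep.ofHom ((Rep.ofAlgebraAutOnUnits k K).ρ.quotientToInvariants_lift
            (fixSubgroup k E K))).hom.toLinearMap := by
    refine LinearMap.ext fun x => ?_
    exact congrArg Subtype.val ((LinearEquiv.ofBijective (unitsToInvariants k E K)
      (unitsToInvariants_bijective k E K)).apply_symm_apply x)
  have e1 : groupCohomology.map (quotGalEquiv k E K).symm.toMonoidHom (invariantsToUnits k E K) 2 ≫
        groupCohomology.map (AlgEquiv.restrictNormalHom (F := k) (K₁ := K) E)
          (unitsInflHom k E K) 2
      = groupCohomology.map (QuotientGroup.mk' (fixSubgroup k E K))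
          (Rep.ofHom ((Rep.ofAlgebraAutOnUnits k K).ρ.quotientToInvariants_lift
            (fixSubgroup k E K))) 2 := by
    rw [← groupCohomology.map_comp]
    exact groupCohomology.map_congr hfg hφψ 2
  exact (congrArg (fun f => f.hom γ) e1).symm

/-- **(TOWER-INFCOMPAT)**: inflation from `E / k` to `K / k` preserves the local invariants. -/
theorem towerOf_infCompat (hInfl : ∀ (q : ℕ) [Fact q.Prime], H66.LeafInvInfl q)
    (hIndep : ∀ (q : ℕ) [Fact q.Prime] (τ' τ'' : E →+* PadicAlgCl q),
      (placeSetoid q k).r (τ'.comp (algebraMap k E)) (τ''.comp (algebraMap k E)) →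
        linvAt q k τ' = linvAt q k τ'') : (towerOf k E K).InfCompat := by
  intro (v : FinPlace k)
    (γ : groupCohomology
      ((Rep.ofAlgebraAutOnUnits k K).quotientToInvariants (fixSubgroup k E K)) 2)
  have h := inflOf_compat k E K hInfl hIndep v (quotH2 k E K γ)
  have h2 := congrArg ((layerOf k K).linv v) (infH2_eq_inflOf_map_quotH2 k E K γ)
  exact h2.trans h

end Tower

end Fermat.Agent.S55.H83
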