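import Mathlib
import Fermat.Agent.S55.H88.LayerSpec
import Fermat.Agent.S55.H66.C3Main
import Fermat.Agent.S55.H83.TowerCompat

/-!
Program C (S55), C5 → C8 glue (helper83): helper88's leaves (L3) `H88.InflCompatStatement` and
(L5) `H88.TowerInfCompatStatement` VERBATIM, for number fields, from (L1) `H88.LinvIndepStatement`
and C3's `H66.c3_invInfl`.
-/

set_option autoImplicit false

noncomputable section

namespace Fermat.Agent.S55.H83

open Fermat.Agent.S55.H88 Fermat.Agent.S55.H66

/-- **(L3)** `(inflOf k K K').Compat`, from (L1) for the layer `K / k`. -/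
theorem inflCompatStatement (k K K' : Type) [Field k] [Field K] [Field K'] [Algebra k K]
    [Algebra k K'] [Algebra K K'] [IsScalarTower k K K'] [Normal k K] [Normal k K']
    [NumberField k] [NumberField K] [NumberField K'] (hIndep : LinvIndepStatement k K) :
    InflCompatStatement k K K' :=
  inflOf_compat k K K' (fun q _ => c3_invInfl q) hIndep

/-- **(L5)** `(towerOf k E K).InfCompat`, from (L1) for the layer `E / k`. -/
theorem towerInfCompatStatement (k E K : Type) [Field k] [Field E] [Field K] [Algebra k E]
    [Algebra E K] [Algebra k K] [IsScalarTower k E K] [Normal k E] [IsGalois k K]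
    [FiniteDimensional k K] [NumberField k] [NumberField E] [NumberField K]
    (hIndep : LinvIndepStatement k E) : TowerInfCompatStatement k E K :=
  towerOf_infCompat k E K (fun q _ => c3_invInfl q) hIndep

end Fermat.Agent.S55.H83
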