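import Mathlib
import Fermat.Agent.S55.H88.TowerData
import Fermat.Agent.S55.H20.InvTransport
import Fermat.Agent.S55.H83.InflCompat

/-!
Program C (S55), C5 → C8 glue (helper83): `(H88.subTowerOf k E K).Compat` — restriction to
`Gal(K/E)` multiplies the local invariants by the local degrees.

* `finrank_eq_of_pres`: the local degree in any presentation of the base;
* `linvAt_res`: `linvAt q E τ ∘ subH2 ∘ res = [E_w : k_v] • linvAt q k τ`, from C3's
  `H66.LeafInvRes` and the transport theorem `H20.inv_transH2` (for `g = 1`: change of the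
  presentation of the base field `E_w`);
* `subTowerOf_compat`.
-/

set_option autoImplicit false
set_option linter.style.haveILetI false
set_option linter.unusedSectionVars false

open CategoryTheory

noncomputable section

namespace Fermat.Agent.S55.H83

open Fermat.Agent.S55.H88 Fermat.Agent.S55.H66 Fermat.Agent.S55.H20

variable (q : ℕ) [Fact q.Prime]

section Pres

variable (k : Type) {E : Type} [Field k] [Field E] [Algebra k E] (τ : E →+* PadicAlgCl q)

/-- The local degree computed in any presentation of the base. -/
theorem finrank_eq_of_pres (B : IntermediateField ℚ_[q] (PadicAlgCl q)) (hB : B = locBase q k τ)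
    (M : IntermediateField B (PadicAlgCl q)) (hM : ∀ z, z ∈ M ↔ z ∈ locField q τ) :
    Module.finrank B M = Module.finrank (locBase q k τ) (locExt q k τ) := by
  subst hB
  obtain rfl : M = locExt q k τ := SetLike.ext hM
  rfl

/-- `locBase` of a composite embedding (no normality hypothesis). -/
theorem locBase_comp_algebraMap' (K : Type) [Field K] [Algebra E K] [Algebra k K]
    [IsScalarTower k E K] (τ'' : K →+* PadicAlgCl q) :
    locBase q k τ'' = locBase q k (τ''.comp (algebraMap E K)) := by
  have h : τ''.comp (algebraMap k K) = (τ''.comp (algebraMap E K)).comp (algebraMap k E) := by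
    rw [RingHom.comp_assoc, ← IsScalarTower.algebraMap_eq]
  show locField q _ = locField q _
  rw [h]

end Pres

section Ext

variable {F : Type} [Field F] [Algebra F (PadicAlgCl q)]
variable {L E : IntermediateField F (PadicAlgCl q)}

theorem finiteDimensional_up [FiniteDimensional F E] (h : L ≤ E) :
    FiniteDimensional L (IntermediateField.extendScalars h) := by
  haveI : Module.Finite F (IntermediateField.extendScalars h) :=
    Module.Finite.equiv (upEquiv h).symm.toLinearEquiv
  exact Module.Finite.of_restrictScalars_finite F L (IntermediateField.extendScalars h)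

theorem isGalois_up [IsGalois F E] (h : L ≤ E) :
    IsGalois L (IntermediateField.extendScalars h) := by
  haveI : IsGalois F (IntermediateField.extendScalars h) := IsGalois.of_algEquiv (upEquiv h).symm
  exact IsGalois.tower_top_of_isGalois F L (IntermediateField.extendScalars h)

end Ext

section Res

variable (k E K : Type) [Field k] [Field E] [Field K] [Algebra k E] [Algebra E K] [Algebra k K]
  [IsScalarTower k E K] [Normal k K] [NumberField k] [NumberField E] [NumberField K]

/-- The square `transport ∘ loc_E ∘ res = res_loc ∘ loc_k` on `H²`. -/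
theorem res_key [Normal E K] (τ : K →+* PadicAlgCl q)
    (L : IntermediateField (locBase q k τ) (PadicAlgCl q)) (hLE : L ≤ locExt q k τ)
    (e : locBase q E τ ≃+* L)
    (he : IsCompat (q := q) (AlgEquiv.refl : PadicAlgCl q ≃ₐ[ℚ_[q]] PadicAlgCl q) e)
    (hL : IsImage (q := q) (AlgEquiv.refl : PadicAlgCl q ≃ₐ[ℚ_[q]] PadicAlgCl q)
      (locExt q E τ) (IntermediateField.extendScalars hLE))
    (α : groupCohomology (Rep.ofAlgebraAutOnUnits k K) 2) :
    (transH2 he hL).hom
        (locH2At q E τ (subH2 k E K (H29.resH2 (Rep.ofAlgebraAutOnUnits k K)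
          (fixSubgroup k E K) α)))
      = (H66.resH2 hLE).hom (locH2At q k τ α) := by
  have hfg : (fixSubgroup k E K).subtype.comp
        ((galToFix k E K).comp ((locGalToGlobal q E τ).comp (galMap he hL)))
      = (locGalToGlobal q k τ).comp (upHom hLE) := by
    refine MonoidHom.ext fun β => AlgEquiv.ext fun x => τ.injective ?_
    have h1 := congrArg (fun y : locExt q E τ => (y : PadicAlgCl q))
      (locGalToGlobal_spec q E τ (galMap he hL β) x)
    have h2 := coe_galMap he hL β (locExtEmb q E τ x)
    have h3 := congrArg (fun y : locExt q k τ => (y : PadicAlgCl q))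
      (locGalToGlobal_spec q k τ (upHom hLE β) x)
    have h4 : fieldEquiv hL (locExtEmb q E τ x) = (upEquiv hLE).symm (locExtEmb q k τ x) :=
      Subtype.ext (upEquiv_symm_apply_coe hLE (locExtEmb q k τ x)).symm
    have h5 : τ (locGalToGlobal q E τ (galMap he hL β) x)
        = τ (locGalToGlobal q k τ (upHom hLE β) x) := by
      refine h1.symm.trans (Eq.trans ?_ h3)
      refine h2.trans ?_
      rw [h4]
      rfl
    exact h5
  have c34 := groupCohomology.map_comp (locGalToGlobal q E τ) (galMap he hL)
    (globalToLocUnits q E τ) (transRep he hL) 2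
  have c234 := groupCohomology.map_comp (galToFix k E K)
    ((locGalToGlobal q E τ).comp (galMap he hL)) (resUnitsHom k E K)
    ((Rep.resFunctor (galMap he hL)).map (globalToLocUnits q E τ) ≫ transRep he hL) 2
  have c1234 := groupCohomology.map_comp (fixSubgroup k E K).subtype
    ((galToFix k E K).comp ((locGalToGlobal q E τ).comp (galMap he hL)))
    (𝟙 (Rep.res (fixSubgroup k E K).subtype (Rep.ofAlgebraAutOnUnits k K)))
    ((Rep.resFunctor ((locGalToGlobal q E τ).comp (galMap he hL))).map (resUnitsHom k E K) ≫
      ((Rep.resFunctor (galMap he hL)).map (globalToLocUnits q E τ) ≫ transRep he hL)) 2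
  have d := groupCohomology.map_comp (locGalToGlobal q k τ) (upHom hLE)
    (globalToLocUnits q k τ) (upRep hLE) 2
  have hmid := groupCohomology.map_congr (A := Rep.ofAlgebraAutOnUnits k K)
    (B := Rep.ofAlgebraAutOnUnits L (IntermediateField.extendScalars hLE))
    (f := (fixSubgroup k E K).subtype.comp
        ((galToFix k E K).comp ((locGalToGlobal q E τ).comp (galMap he hL))))
    (g := (locGalToGlobal q k τ).comp (upHom hLE))
    (φ := (Rep.resFunctor ((galToFix k E K).comp
        ((locGalToGlobal q E τ).comp (galMap he hL)))).map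
        (𝟙 (Rep.res (fixSubgroup k E K).subtype (Rep.ofAlgebraAutOnUnits k K))) ≫
      ((Rep.resFunctor ((locGalToGlobal q E τ).comp (galMap he hL))).map (resUnitsHom k E K) ≫
        ((Rep.resFunctor (galMap he hL)).map (globalToLocUnits q E τ) ≫ transRep he hL)))
    (ψ := (Rep.resFunctor (upHom hLE)).map (globalToLocUnits q k τ) ≫ upRep hLE) hfg
    (LinearMap.ext fun x => congrArg Additive.ofMul (Units.ext (Subtype.ext
      (upEquiv_symm_apply_coe hLE (locExtEmb q k τ ((Additive.toMul (α := Kˣ) x : Kˣ) : K))).symm))) 2
  have s1 := congrArg (fun f => f.hom ((groupCohomology.map (galToFix k E K) (resUnitsHom k E K) 2).hom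
    ((groupCohomology.map (fixSubgroup k E K).subtype
      (𝟙 (Rep.res (fixSubgroup k E K).subtype (Rep.ofAlgebraAutOnUnits k K))) 2).hom α))) c34
  have s2 := congrArg (fun f => f.hom ((groupCohomology.map (fixSubgroup k E K).subtype
      (𝟙 (Rep.res (fixSubgroup k E K).subtype (Rep.ofAlgebraAutOnUnits k K))) 2).hom α)) c234
  have s3 := congrArg (fun f => f.hom α) c1234
  have s4 := congrArg (fun f => f.hom α) hmid
  have s5 := congrArg (fun f => f.hom α) d
  exact s1.symm.trans (s2.symm.trans (s3.symm.trans (s4.trans s5)))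

/-- **Local restriction.** -/
theorem linvAt_res (hRes : H66.LeafInvRes q) [Normal E K] (τ : K →+* PadicAlgCl q)
    (α : groupCohomology (Rep.ofAlgebraAutOnUnits k K) 2) :
    linvAt q E τ (subH2 k E K (H29.resH2 (Rep.ofAlgebraAutOnUnits k K) (fixSubgroup k E K) α))
      = Module.finrank (locBase q k (τ.comp (algebraMap E K)))
          (locExt q k (τ.comp (algebraMap E K))) • linvAt q k τ α := by
  set τE : E →+* PadicAlgCl q := τ.comp (algebraMap E K) with hτE
  have hB : locBase q k τ = locBase q k τE := locBase_comp_algebraMap' q k K τ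
  have hFle : locBase q k τ ≤ locField q τE := hB ▸ locBase_le q k τE
  let L : IntermediateField (locBase q k τ) (PadicAlgCl q) := IntermediateField.extendScalars hFle
  have hLmem : ∀ z, z ∈ L ↔ z ∈ locField q τE := fun z => Iff.rfl
  have hLE : L ≤ locExt q k τ := locField_comp_le q E K τ
  haveI : FiniteDimensional (locBase q k τ) L :=
    finiteDimensional_of_mem_iff q _ L (locField q τE) hLmem
  haveI : FiniteDimensional (locBase q k τ) (locExt q k τ) :=
    finiteDimensional_of_mem_iff q _ _ (locField q τ) (fun _ => Iff.rfl)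
  haveI : IsGalois (locBase q k τ) (locExt q k τ) := isGalois_of_normal q _ _
  haveI : FiniteDimensional L (IntermediateField.extendScalars hLE) := finiteDimensional_up q hLE
  haveI : IsGalois L (IntermediateField.extendScalars hLE) := isGalois_up q hLE
  -- the two presentations of `K_w / E_w`
  let e : locBase q E τ ≃+* L :=
    { toFun := fun x => ⟨x.1, x.2⟩
      invFun := fun y => ⟨y.1, y.2⟩
      left_inv := fun _ => rfl
      right_inv := fun _ => rfl
      map_mul' := fun _ _ => rfl
      map_add' := fun _ _ => rfl }
  have he : IsCompat (q := q) (AlgEquiv.refl : PadicAlgCl q ≃ₐ[ℚ_[q]] PadicAlgCl q) e :=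
    fun x => rfl
  have hL : IsImage (q := q) (AlgEquiv.refl : PadicAlgCl q ≃ₐ[ℚ_[q]] PadicAlgCl q)
      (locExt q E τ) (IntermediateField.extendScalars hLE) := fun x => Iff.rfl
  haveI : FiniteDimensional (locBase q E τ) (locExt q E τ) :=
    finiteDimensional_of_mem_iff q _ _ (locField q τ) (fun _ => Iff.rfl)
  haveI : IsGalois (locBase q E τ) (locExt q E τ) := isGalois_of_normal q _ _
  have hT := inv_transH2 he hL
    (locH2At q E τ (subH2 k E K (H29.resH2 (Rep.ofAlgebraAutOnUnits k K) (fixSubgroup k E K) α)))
  have hR := hRes (locBase q k τ) L (locExt q k τ) hLE (locH2At q k τ α)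
  have hdeg : Module.finrank (locBase q k τ) L
      = Module.finrank (locBase q k τE) (locExt q k τE) :=
    finrank_eq_of_pres q k τE (locBase q k τ) hB L hLmem
  have key := res_key q k E K τ L hLE e he hL α
  show H66.inv q (locExt q E τ) _ = _ • H66.inv q (locExt q k τ) (locH2At q k τ α)
  rw [← hT, key, hR, hdeg]

end Res

attribute [local instance] factOfPrimes

section Compat

variable (k E K : Type) [Field k] [Field E] [Field K] [Algebra k E] [Algebra E K] [Algebra k K]
  [IsScalarTower k E K] [Normal k K] [NumberField k] [NumberField E] [NumberField K]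

/-- The chosen embedding of the place below `w` is conjugate to the restriction of the chosen
embedding of `w`. -/
theorem below_emb_rel (w : FinPlace E) :
    (placeSetoid (w.1 : ℕ) k).r (w.emb.comp (algebraMap k E)) (w.below k).emb := by
  have h1 : (w.below k).2 = placeOf (w.1 : ℕ) (w.emb.comp (algebraMap k E)) := by
    show PlaceAbove.restrict (w.1 : ℕ) k E w.2 = _
    have h2 : w.2 = placeOf (w.1 : ℕ) w.emb := (Quotient.out_eq w.2).symm
    rw [h2]
    rfl
  have h3 : (w.below k).emb = Quotient.out (placeOf (w.1 : ℕ) (w.emb.comp (algebraMap k E))) :=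
    congrArg (fun v : PlaceAbove (w.1 : ℕ) k => Quotient.out v) h1
  rw [h3]
  exact (placeSetoid (w.1 : ℕ) k).symm (Quotient.mk_out (s := placeSetoid (w.1 : ℕ) k) _)

/-- **(SUBTOWER-COMPAT)**: restriction to `Gal(K/E)` multiplies the local invariants by the
local degrees. -/
theorem subTowerOf_compat (hRes : ∀ (q : ℕ) [Fact q.Prime], H66.LeafInvRes q)
    (hIndep : ∀ (q : ℕ) [Fact q.Prime] (τ' τ'' : K →+* PadicAlgCl q),
      (placeSetoid q k).r (τ'.comp (algebraMap k K)) (τ''.comp (algebraMap k K)) →
        linvAt q k τ' = linvAt q k τ'') : (subTowerOf k E K).Compat := by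
  intro (w : FinPlace E) (α : groupCohomology (Rep.ofAlgebraAutOnUnits k K) 2)
  haveI : Normal E K := Normal.tower_top_of_normal k E K
  have hKE : (w.ext K).comp (algebraMap E K) = w.emb := FinPlace.ext_comp K w
  have h1 := linvAt_res (w.1 : ℕ) k E K (hRes (w.1 : ℕ)) (w.ext K) α
  rw [hKE] at h1
  have h2 : linvAt (w.1 : ℕ) k (w.ext K) = linvAt (w.1 : ℕ) k ((w.below k).ext K) := by
    refine hIndep (w.1 : ℕ) _ _ ?_
    have h3 : (w.ext K).comp (algebraMap k K) = w.emb.comp (algebraMap k E) := by
      rw [← hKE, RingHom.comp_assoc, ← IsScalarTower.algebraMap_eq]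
    have h4 : ((w.below k).ext K).comp (algebraMap k K) = (w.below k).emb :=
      FinPlace.ext_comp K (w.below k)
    obtain ⟨g, hg⟩ := below_emb_rel k E w
    exact ⟨g, h4.trans (hg.trans (congrArg (fun t : k →+* PadicAlgCl (w.1 : ℕ) =>
      (g : PadicAlgCl (w.1 : ℕ) →+* PadicAlgCl (w.1 : ℕ)).comp t) h3.symm))⟩
  rw [h2] at h1
  exact h1

end Compat

end Fermat.Agent.S55.H83
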