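import Mathlib
import Fermat.Agent.S55.H88.LayerSpec
import Fermat.Agent.S55.H76.InvResFinal
import Fermat.Agent.S55.H83.SubTowerCompat

/-!
Program C (S55), C5 → C8 glue (helper83): helper88's leaf (L4) `H88.SubTowerCompatStatement`
VERBATIM, for number fields, from (L1) `H88.LinvIndepStatement` and C3's
`H76.leafInvRes_holds`.
-/

set_option autoImplicit false

noncomputable section

namespace Fermat.Agent.S55.H83

open Fermat.Agent.S55.H88 Fermat.Agent.S55.H66

/-- **(L4)** `(subTowerOf k E K).Compat`, from (L1) for the layer `K / k`. -/
theorem subTowerCompatStatement (k K E : Type) [Field k] [Field K] [Field E] [Algebra k K]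
    [Algebra k E] [Algebra E K] [IsScalarTower k E K] [Normal k K]
    [NumberField k] [NumberField E] [NumberField K] (hIndep : LinvIndepStatement k K) :
    SubTowerCompatStatement k K E :=
  subTowerOf_compat k E K (fun q _ => Fermat.Agent.S55.H76.leafInvRes_holds q) hIndep

end Fermat.Agent.S55.H83
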