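import Mathlib
import Fermat.Agent.S55.H20.LinvIndep
import Fermat.Agent.S55.H83.LayerCompat
import Fermat.Agent.S55.H83.LayerCompat2

/-!
Program C (S55), C5 → C8 glue (helper83): helper88's leaves (L3), (L4), (L5) of
`H88/LayerSpec.lean` UNCONDITIONALLY for number fields, by helper20's (L1) `H20.linvIndep`.

* `inflCompat      : H88.InflCompatStatement k K K'`      (`(inflOf k K K').Compat`)
* `subTowerCompat  : H88.SubTowerCompatStatement k K E`   (`(subTowerOf k E K).Compat`)
* `towerInfCompat  : H88.TowerInfCompatStatement k E K`   (`(towerOf k E K).InfCompat`)
-/

set_option autoImplicit false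

noncomputable section

namespace Fermat.Agent.S55.H83

open Fermat.Agent.S55.H88

/-- **(L3)** Inflation `K ⊆ K'` preserves the local invariants. -/
theorem inflCompat (k K K' : Type) [Field k] [Field K] [Field K'] [Algebra k K]
    [Algebra k K'] [Algebra K K'] [IsScalarTower k K K'] [Normal k K] [Normal k K']
    [NumberField k] [NumberField K] [NumberField K'] : InflCompatStatement k K K' := by
  haveI : FiniteDimensional k K := Module.Finite.of_restrictScalars_finite ℚ k K
  exact inflCompatStatement k K K' (Fermat.Agent.S55.H20.linvIndep k K)

/-- **(L4)** Restriction to `Gal(K/E)` multiplies the local invariants by the local degrees. -/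
theorem subTowerCompat (k K E : Type) [Field k] [Field K] [Field E] [Algebra k K]
    [Algebra k E] [Algebra E K] [IsScalarTower k E K] [Normal k K]
    [NumberField k] [NumberField E] [NumberField K] : SubTowerCompatStatement k K E := by
  haveI : FiniteDimensional k K := Module.Finite.of_restrictScalars_finite ℚ k K
  exact subTowerCompatStatement k K E (Fermat.Agent.S55.H20.linvIndep k K)

/-- **(L5)** Inflation from `E / k` preserves the local invariants. -/
theorem towerInfCompat (k E K : Type) [Field k] [Field E] [Field K] [Algebra k E]
    [Algebra E K] [Algebra k K] [IsScalarTower k E K] [Normal k E] [IsGalois k K]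
    [FiniteDimensional k K] [NumberField k] [NumberField E] [NumberField K] :
    TowerInfCompatStatement k E K := by
  haveI : FiniteDimensional k E := Module.Finite.of_restrictScalars_finite ℚ k E
  exact towerInfCompatStatement k E K (Fermat.Agent.S55.H20.linvIndep k E)

end Fermat.Agent.S55.H83
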