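import Mathlib
import Fermat.Agent.S55.H29.C8Cls
import Fermat.Agent.S55.H84.InfRes2
import Fermat.Agent.S55.H79.SubPres

/-!
Program C (S55), package C8, export (B4), leaf (CLASS-INFRES) of `H29/C8Cls.lean` — helper83.

Inflation–restriction in degree 2 for the idele class module, in the Galois presentation
(`classInfl`, `subGal`, `classSub` of `H29/C8Idele.lean`):
`classInfRes_of : H29.ClassInvStatement → H29.ClassInfResStatement`.

* `classSubLin_bijective`, `classSubEquiv`, `classSubIso` : `C_L` as a `Gal(L/K)`-module is the
  restriction of `C_L` as a `Gal(L/k)`-module (isomorphism on cohomology in all degrees);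
* `classToInv`, `classInvEquiv`, `classQuotIso` : `C_K ≅ (C_L)^{Gal(L/K)}` from (CLASS-INV), and
  the induced isomorphism `Hⁿ(Gal(L/k) ⧸ Gal(L/K), (C_L)^{Gal(L/K)}) ≅ Hⁿ(Gal(K/k), C_K)`;
* `classQuotIso_hom_comp_infl` : inflation in the quotient presentation is `classInfl` after the
  change of presentation; `classSub_eq_res_comp` : the same for restriction;
* the assembly with `H84.H2InfRes_f_injective` / `H84.H2InfRes_exact_apply` (C1-c).
-/

set_option autoImplicit false
set_option linter.style.haveILetI false
set_option linter.unusedSectionVars false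

open CategoryTheory groupCohomology Rep

noncomputable section

namespace Fermat.Agent.S55.H83

open Fermat.Agent.S55.H88 Fermat.Agent.S55.H29

/-! ### The restriction side -/

section Sub

variable (k K L : Type) [Field k] [Field K] [Field L] [Algebra k K] [Algebra K L] [Algebra k L]
  [IsScalarTower k K L] [NumberField L]

/-- `C_L → C_L` (change of presentation `Gal(L/k)` / `Gal(L/K)`) is bijective. -/
theorem classSubLin_bijective : Function.Bijective (classSubLin k K L) := by
  constructor
  · rw [injective_iff_map_eq_zero]
    intro c hc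
    obtain ⟨x, rfl⟩ := Submodule.mkQ_surjective (idelePrincipal k L) c
    have h1 : (ideleClassProj K L).hom ((ideleSub k K L).hom x) = 0 := hc
    obtain ⟨u, hu⟩ := (Submodule.Quotient.mk_eq_zero (idelePrincipal K L)).mp h1
    exact (Submodule.Quotient.mk_eq_zero (idelePrincipal k L)).mpr ⟨u, hu⟩
  · intro c
    obtain ⟨x, rfl⟩ := Submodule.mkQ_surjective (idelePrincipal K L) c
    exact ⟨(ideleClassProj k L).hom x, rfl⟩

/-- The linear equivalence underlying `classSub`. -/
def classSubEquiv : (ideleClassRep k L).V ≃ₗ[ℤ] (ideleClassRep K L).V :=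
  LinearEquiv.ofBijective (classSubLin k K L) (classSubLin_bijective k K L)

theorem classSubEquiv_apply (c : (ideleClassRep k L).V) :
    classSubEquiv k K L c = classSubLin k K L c := rfl

theorem classSub_comm (g : L ≃ₐ[K] L) :
    (classSubEquiv k K L).symm.toLinearMap ∘ₗ (ideleClassRep K L).ρ g =
      (Rep.res (fixSubgroup k K L).subtype (ideleClassRep k L)).ρ (H79.galFixEquiv k K L g) ∘ₗ
        (classSubEquiv k K L).symm.toLinearMap := by
  refine LinearMap.ext fun c => ?_
  obtain ⟨c', rfl⟩ := (classSubEquiv k K L).surjective c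
  have h := Rep.hom_comm_apply (classSub k K L) g c'
  have h' : (ideleClassRep K L).ρ g (classSubEquiv k K L c')
      = classSubEquiv k K L ((ideleClassRep k L).ρ (subGal k K L g) c') := h.symm
  show (classSubEquiv k K L).symm ((ideleClassRep K L).ρ g (classSubEquiv k K L c'))
    = (ideleClassRep k L).ρ (subGal k K L g) ((classSubEquiv k K L).symm (classSubEquiv k K L c'))
  rw [h', LinearEquiv.symm_apply_apply, LinearEquiv.symm_apply_apply]

/-- `Hⁿ(Gal(L/K), C_L) ≅ Hⁿ(fixSubgroup k K L, C_L)`. -/
def classSubIso (n : ℕ) :
    groupCohomology (ideleClassRep K L) n ≅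
      groupCohomology (Rep.res (fixSubgroup k K L).subtype (ideleClassRep k L)) n :=
  mapIso (H79.galFixEquiv k K L) (classSubEquiv k K L).symm (classSub_comm k K L) n

/-- `classSub` in the presentation `res galToFix (res N.subtype C_L)`. -/
def classSub' :
    Rep.res (galToFix k K L) (Rep.res (fixSubgroup k K L).subtype (ideleClassRep k L)) ⟶
      ideleClassRep K L :=
  classSub k K L

theorem classSub'_apply
    (c : (Rep.res (galToFix k K L) (Rep.res (fixSubgroup k K L).subtype (ideleClassRep k L))).V) :
    (classSub' k K L).hom c = classSubLin k K L c := rfl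

theorem map_classSub'_eq (n : ℕ) :
    groupCohomology.map (galToFix k K L) (classSub' k K L) n = (classSubIso k K L n).inv :=
  map_congr (MonoidHom.ext fun σ => rfl) (by ext x; rfl) n

theorem map_classSub'_injective (n : ℕ) :
    Function.Injective (groupCohomology.map (galToFix k K L) (classSub' k K L) n).hom := by
  have h : Function.Bijective (classSubIso k K L n).inv.hom :=
    ConcreteCategory.bijective_of_isIso (classSubIso k K L n).inv
  rw [map_classSub'_eq]
  exact h.1

/-- Restriction in the Galois presentation is restriction to the subgroup followed by the change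
of presentation. -/
theorem classSub_eq_res_comp (x : groupCohomology (ideleClassRep k L) 2) :
    (groupCohomology.map (subGal k K L) (classSub k K L) 2).hom x
      = (groupCohomology.map (galToFix k K L) (classSub' k K L) 2).hom
          ((groupCohomology.map (fixSubgroup k K L).subtype
            (𝟙 (Rep.res (fixSubgroup k K L).subtype (ideleClassRep k L))) 2).hom x) := by
  have e1 := groupCohomology.map_comp (fixSubgroup k K L).subtype (galToFix k K L)
    (𝟙 (Rep.res (fixSubgroup k K L).subtype (ideleClassRep k L))) (classSub' k K L) 2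
  have e2 : groupCohomology.map (subGal k K L) (classSub k K L) 2
      = groupCohomology.map ((fixSubgroup k K L).subtype.comp (galToFix k K L))
          ((Rep.resFunctor (galToFix k K L)).map
            (𝟙 (Rep.res (fixSubgroup k K L).subtype (ideleClassRep k L))) ≫ classSub' k K L) 2 :=
    groupCohomology.map_congr (A := ideleClassRep k L) (B := ideleClassRep K L)
      (f := subGal k K L) (g := (fixSubgroup k K L).subtype.comp (galToFix k K L))
      (φ := classSub k K L)
      (ψ := (Rep.resFunctor (galToFix k K L)).map
            (𝟙 (Rep.res (fixSubgroup k K L).subtype (ideleClassRep k L))) ≫ classSub' k K L)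
      rfl (LinearMap.ext fun c => rfl) 2
  exact congrArg (fun f => f.hom x) (e2.trans e1)

end Sub

/-! ### The inflation side -/

section Quot

variable (k K L : Type) [Field k] [Field K] [Field L] [Algebra k K] [Algebra k L] [Algebra K L]
  [IsScalarTower k K L] [NumberField k] [NumberField K] [NumberField L] [IsGalois k K]
  [IsGalois k L]

theorem restrictNormalHom_eq_one_of_mem {σ : L ≃ₐ[k] L} (hσ : σ ∈ fixSubgroup k K L) :
    AlgEquiv.restrictNormalHom (F := k) (K₁ := L) K σ = 1 := by
  rw [fixSubgroup_eq_ker k K L] at hσ
  exact hσ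

/-- `C_K → (C_L)^{Gal(L/K)}`. -/
def classToInv : (ideleClassRep k K).V →ₗ[ℤ]
    Representation.invariants ((ideleClassRep k L).ρ.comp (fixSubgroup k K L).subtype) :=
  LinearMap.codRestrict _ (classInflLin k K L) (fun c σ => by
    have h := Rep.hom_comm_apply (classInfl k K L) (σ : L ≃ₐ[k] L) c
    have h1 : AlgEquiv.restrictNormalHom (F := k) (K₁ := L) K (σ : L ≃ₐ[k] L) = 1 :=
      restrictNormalHom_eq_one_of_mem k K L σ.2
    have h2 : classInflLin k K L ((ideleClassRep k K).ρ
          (AlgEquiv.restrictNormalHom (F := k) (K₁ := L) K (σ : L ≃ₐ[k] L)) c)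
        = (ideleClassRep k L).ρ (σ : L ≃ₐ[k] L) (classInflLin k K L c) := h
    rw [h1, map_one] at h2
    exact h2.symm)

theorem classToInv_coe (c : (ideleClassRep k K).V) :
    ((classToInv k K L c : Representation.invariants
      ((ideleClassRep k L).ρ.comp (fixSubgroup k K L).subtype)) : (ideleClassRep k L).V)
      = classInflLin k K L c := rfl

variable (hCI : ClassInvStatement)

include hCI in
theorem classToInv_bijective : Function.Bijective (classToInv k K L) := by
  obtain ⟨hinj, hsurj⟩ := hCI k K L
  constructor
  · intro a b h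
    exact hinj (congrArg Subtype.val h)
  · rintro ⟨c, hc⟩
    obtain ⟨c₀, h0⟩ := hsurj c (fun σ hσ => hc ⟨σ, hσ⟩)
    exact ⟨c₀, Subtype.ext h0⟩

/-- `(C_L)^{Gal(L/K)} ≃ C_K`, from (CLASS-INV). -/
def classInvEquiv :
    ((ideleClassRep k L).quotientToInvariants (fixSubgroup k K L)).V ≃ₗ[ℤ]
      (ideleClassRep k K).V :=
  (LinearEquiv.ofBijective (classToInv k K L) (classToInv_bijective k K L hCI)).symm

theorem classInvEquiv_classToInv (c : (ideleClassRep k K).V) :
    classInvEquiv k K L hCI (classToInv k K L c) = c :=
  (LinearEquiv.ofBijective (classToInv k K L) (classToInv_bijective k K L hCI)).symm_apply_apply c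

theorem classInflLin_classInvEquiv
    (x : ((ideleClassRep k L).quotientToInvariants (fixSubgroup k K L)).V) :
    classInflLin k K L (classInvEquiv k K L hCI x) = (x : (ideleClassRep k L).V) :=
  congrArg Subtype.val
    ((LinearEquiv.ofBijective (classToInv k K L)
      (classToInv_bijective k K L hCI)).apply_symm_apply x)

theorem classInv_comm (g : (L ≃ₐ[k] L) ⧸ fixSubgroup k K L) :
    (classInvEquiv k K L hCI).toLinearMap ∘ₗ
        ((ideleClassRep k L).quotientToInvariants (fixSubgroup k K L)).ρ g =
      (ideleClassRep k K).ρ (quotGalEquiv k K L g) ∘ₗ (classInvEquiv k K L hCI).toLinearMap := by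
  refine LinearMap.ext fun x => ?_
  obtain ⟨c, rfl⟩ := (classToInv_bijective k K L hCI).2 x
  obtain ⟨σ, rfl⟩ := QuotientGroup.mk_surjective g
  have key : ((ideleClassRep k L).quotientToInvariants (fixSubgroup k K L)).ρ
        (QuotientGroup.mk σ) (classToInv k K L c)
      = classToInv k K L ((ideleClassRep k K).ρ (σ.restrictNormal K) c) := by
    refine Subtype.ext ?_
    exact (Rep.hom_comm_apply (classInfl k K L) σ c).symm
  show classInvEquiv k K L hCI
      (((ideleClassRep k L).quotientToInvariants (fixSubgroup k K L)).ρ
        (QuotientGroup.mk σ) (classToInv k K L c))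
    = (ideleClassRep k K).ρ (quotGalEquiv k K L (QuotientGroup.mk σ))
        (classInvEquiv k K L hCI (classToInv k K L c))
  rw [key, classInvEquiv_classToInv, classInvEquiv_classToInv, quotGalEquiv_mk]

/-- `Hⁿ(Gal(L/k) ⧸ Gal(L/K), (C_L)^{Gal(L/K)}) ≅ Hⁿ(Gal(K/k), C_K)`. -/
def classQuotIso (n : ℕ) :
    groupCohomology ((ideleClassRep k L).quotientToInvariants (fixSubgroup k K L)) n ≅
      groupCohomology (ideleClassRep k K) n :=
  mapIso (quotGalEquiv k K L) (classInvEquiv k K L hCI) (classInv_comm k K L hCI) n

set_option backward.isDefEq.respectTransparency false in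
/-- `(C_L)^{Gal(L/K)} → C_K` as a morphism of representations of `Gal(K/k)`. -/
def invToClass :
    Rep.res (quotGalEquiv k K L).symm.toMonoidHom
        ((ideleClassRep k L).quotientToInvariants (fixSubgroup k K L)) ⟶ ideleClassRep k K :=
  Rep.ofHom ⟨(classInvEquiv k K L hCI).toLinearMap, fun γ => by
    have h := classInv_comm k K L hCI ((quotGalEquiv k K L).symm γ)
    rw [MulEquiv.apply_symm_apply] at h
    exact h⟩

theorem classQuotIso_hom (n : ℕ) :
    (classQuotIso k K L hCI n).hom
      = groupCohomology.map (quotGalEquiv k K L).symm.toMonoidHom (invToClass k K L hCI) n :=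
  map_congr (MonoidHom.ext fun σ => rfl) (by ext x; rfl) n

set_option backward.isDefEq.respectTransparency false in
/-- Inflation in the quotient presentation is `classInfl` after the change of presentation. -/
theorem classQuotIso_hom_comp_infl :
    (classQuotIso k K L hCI 2).hom ≫
        groupCohomology.map (AlgEquiv.restrictNormalHom (F := k) (K₁ := L) K) (classInfl k K L) 2
      = groupCohomology.map (QuotientGroup.mk' (fixSubgroup k K L))
          (Rep.ofHom ((ideleClassRep k L).ρ.quotientToInvariants_lift (fixSubgroup k K L))) 2 := by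
  have hfg : (quotGalEquiv k K L).symm.toMonoidHom.comp
        (AlgEquiv.restrictNormalHom (F := k) (K₁ := L) K)
      = QuotientGroup.mk' (fixSubgroup k K L) := by
    refine MonoidHom.ext fun σ => ?_
    show (quotGalEquiv k K L).symm (σ.restrictNormal K) = QuotientGroup.mk σ
    rw [MulEquiv.symm_apply_eq, quotGalEquiv_mk]
  have hφψ : ((Rep.resFunctor (AlgEquiv.restrictNormalHom (F := k) (K₁ := L) K)).map
          (invToClass k K L hCI) ≫ classInfl k K L).hom.toLinearMap
        = (Rep.ofHom ((ideleClassRep k L).ρ.quotientToInvariants_lift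
            (fixSubgroup k K L))).hom.toLinearMap := by
    refine LinearMap.ext fun x => ?_
    exact classInflLin_classInvEquiv k K L hCI x
  rw [classQuotIso_hom, ← groupCohomology.map_comp]
  exact groupCohomology.map_congr hfg hφψ 2

end Quot

/-- **Leaf (CLASS-INFRES)** of `H29/C8Cls.lean` from (CLASS-INV), verbatim. -/
theorem classInfRes_of (hCI : ClassInvStatement) : ClassInfResStatement := by
  intro k K L _ _ _ _ _ _ _ _ _ _ _ _ h1
  have h1' : Limits.IsZero
      (groupCohomology (Rep.res (fixSubgroup k K L).subtype (ideleClassRep k L)) 1) :=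
    Limits.IsZero.of_iso h1 (classSubIso k K L 1).symm
  have hinj := H84.H2InfRes_f_injective (ideleClassRep k L) (fixSubgroup k K L) h1'
  have hex := H84.H2InfRes_exact_apply (ideleClassRep k L) (fixSubgroup k K L) h1'
  have hbij : Function.Bijective (classQuotIso k K L hCI 2).hom.hom :=
    ConcreteCategory.bijective_of_isIso (classQuotIso k K L hCI 2).hom
  have key : ∀ y,
      (groupCohomology.map (AlgEquiv.restrictNormalHom (F := k) (K₁ := L) K)
        (classInfl k K L) 2).hom ((classQuotIso k K L hCI 2).hom.hom y)
      = (H84.H2InfRes (ideleClassRep k L) (fixSubgroup k K L)).f.hom y := fun y =>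
    congrArg (fun f => f.hom y) (classQuotIso_hom_comp_infl k K L hCI)
  constructor
  · intro c₁ c₂ h
    obtain ⟨y₁, rfl⟩ := hbij.2 c₁
    obtain ⟨y₂, rfl⟩ := hbij.2 c₂
    rw [key, key] at h
    rw [hinj h]
  · intro x hx
    have h0 : (groupCohomology.map (galToFix k K L) (classSub' k K L) 2).hom
        ((H84.H2InfRes (ideleClassRep k L) (fixSubgroup k K L)).g.hom x) = 0 :=
      (classSub_eq_res_comp k K L x).symm.trans hx
    have hx' : (H84.H2InfRes (ideleClassRep k L) (fixSubgroup k K L)).g.hom x = 0 :=
      map_classSub'_injective k K L 2 (h0.trans (map_zero _).symm)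
    obtain ⟨y, hy⟩ := hex x hx'
    exact ⟨(classQuotIso k K L hCI 2).hom.hom y, (key y).trans hy⟩

end Fermat.Agent.S55.H83
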