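import Mathlib
import Fermat.Agent.S55.H29.C8Hasse
import Fermat.Agent.S55.H83.LayerCompatFinal

/-!
Program C (S55), C5 → C8 glue (helper83): helper29's closed leaves of `H29/C8Hasse.lean`
VERBATIM and unconditional:

* `subCompatStatement     : H29.SubCompatStatement`      (SUB-COMPAT)
* `quotInfCompatStatement : H29.QuotInfCompatStatement`  (QUOT-COMPAT)
* `inflCompatStatementC8  : H29.InflCompatStatement`     (INFL-COMPAT)
-/

set_option autoImplicit false

noncomputable section

namespace Fermat.Agent.S55.H83

open Fermat.Agent.S55.H88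

/-- **(SUB-COMPAT)**, verbatim. -/
theorem subCompatStatement : Fermat.Agent.S55.H29.SubCompatStatement := by
  intro k E K _ _ _ _ _ _ _ _ _ _ _
  exact subTowerCompat k K E

/-- **(QUOT-COMPAT)**, verbatim. -/
theorem quotInfCompatStatement : Fermat.Agent.S55.H29.QuotInfCompatStatement := by
  intro k E K _ _ _ _ _ _ _ _ _ _ _ _ _
  exact towerInfCompat k E K

/-- **(INFL-COMPAT)**, verbatim. -/
theorem inflCompatStatementC8 : Fermat.Agent.S55.H29.InflCompatStatement := by
  intro k K K' _ _ _ _ _ _ _ _ _ _ _ _
  exact inflCompat k K K'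

end Fermat.Agent.S55.H83
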